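import Mathlib
import Fermat.Agent.H41.ORD.DvrInterfaces
import Fermat.Agent.H60.SS2.RegFact
import Fermat.Agent.H7.SS2.LevelRegExp
import Fermat.Agent.H48.KL.QExpFinal
import Fermat.Agent.H41.SS.LevelReg
import Fermat.Agent.H57.SS.ModelFinite

/-!
# P-ORD, block B1, row 1158 [DVR], (F1-core) : FACTORISATION MODULO `𝔪_∞` AT LEVEL `M` (helper7)

* `krull_factor_mod` (Mathlib only) : in a noetherian local ring with maximal ideal `(π, u)`,
  every `r ∉ (π)` is `e u ^ k` modulo `π`, `e` a unit (Krull intersection in `R / π`).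
* `levelFactor_abs` (chart language, any discrete valuation ring `A`) : `V` a valuation ring with
  `C(y) = V`, `𝔪_V ∩ V = ϖ V`, `𝔪 ∋ ϖ` a maximal ideal of `B(y)` with `𝔪 B_𝔪 = (ϖ, U)` : every
  unit `u` of `V` is `s u ≡ f U ^ n mod 𝔪_V` with `f, s ∈ B ∖ 𝔪`, `n ∈ ℤ`.
* `modelLevelFactor_h4 : Fermat.Agent.H41.ORD.ModelLevelFactorStatement M q` for `4 ∣ M`, `q` odd,
  `q ∤ M` (UNCONDITIONAL) : the case `U = H - a`, `H` the Hauptmodul of level `4`.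
-/

set_option autoImplicit false
set_option linter.unusedSectionVars false
set_option linter.unusedVariables false
set_option linter.style.haveILetI false
set_option linter.unnecessarySimpa false
set_option maxHeartbeats 1000000

noncomputable section

namespace Fermat.Agent.H7.ORD

open Polynomial IsLocalRing ModularCurve AlgebraicCurve
open Fermat.Agent.H22.KL Fermat.Agent.H45 Fermat.Agent.H60.SS2

/-- **Krull factorisation modulo `π`** : in a noetherian local ring whose maximal ideal is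
`(π, u)`, every element not divisible by `π` is `e u ^ k` modulo `π`, `e` a unit. -/
theorem krull_factor_mod {R : Type*} [CommRing R] [IsLocalRing R] [IsNoetherianRing R]
    (π u : R) (hmax : IsLocalRing.maximalIdeal R = Ideal.span {π, u})
    (r : R) (hr : ¬ π ∣ r) :
    ∃ (k : ℕ) (e : R), IsUnit e ∧ π ∣ r - e * u ^ k := by
  classical
  set I : Ideal R := Ideal.span {π} with hI
  have hπm : π ∈ IsLocalRing.maximalIdeal R := by
    rw [hmax]; exact Ideal.subset_span (by simp)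
  have hum : u ∈ IsLocalRing.maximalIdeal R := by
    rw [hmax]; exact Ideal.subset_span (by simp)
  have hIle : I ≤ IsLocalRing.maximalIdeal R := (Ideal.span_singleton_le_iff_mem _).2 hπm
  have hIne : I ≠ ⊤ := fun h =>
    (IsLocalRing.maximalIdeal.isMaximal R).ne_top (top_le_iff.1 (h ▸ hIle))
  haveI : Nontrivial (R ⧸ I) := Ideal.Quotient.nontrivial_iff.2 hIne
  haveI : IsLocalRing (R ⧸ I) :=
    IsLocalRing.of_surjective' (Ideal.Quotient.mk I) Ideal.Quotient.mk_surjective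
  have hπ0 : Ideal.Quotient.mk I π = 0 :=
    Ideal.Quotient.eq_zero_iff_mem.2 (Ideal.mem_span_singleton_self π)
  have hJ : Ideal.span {Ideal.Quotient.mk I u} ≠ ⊤ := by
    intro h
    rw [Ideal.span_singleton_eq_top] at h
    obtain ⟨v, hv⟩ := h.exists_right_inv
    obtain ⟨v', rfl⟩ := Ideal.Quotient.mk_surjective v
    have h1 : u * v' - 1 ∈ I := by
      rw [← Ideal.Quotient.eq_zero_iff_mem, map_sub, map_mul, map_one, hv, sub_self]
    have h2 : (1 : R) ∈ IsLocalRing.maximalIdeal R := by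
      have := Ideal.sub_mem _ (Ideal.mul_mem_right v' _ hum) (hIle h1)
      simpa using this
    exact (IsLocalRing.maximalIdeal.isMaximal R).ne_top ((Ideal.eq_top_iff_one _).2 h2)
  have hK := Ideal.iInf_pow_eq_bot_of_isLocalRing (Ideal.span {Ideal.Quotient.mk I u}) hJ
  have hr0 : Ideal.Quotient.mk I r ≠ 0 := by
    rw [Ne, Ideal.Quotient.eq_zero_iff_mem, hI, Ideal.mem_span_singleton]
    exact hr
  have hex : ∃ i, Ideal.Quotient.mk I r ∉ Ideal.span {Ideal.Quotient.mk I u} ^ i := by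
    by_contra hall
    push Not at hall
    apply hr0
    have h1 : Ideal.Quotient.mk I r ∈
        (⨅ i, Ideal.span {Ideal.Quotient.mk I u} ^ i : Ideal (R ⧸ I)) := by
      rw [Ideal.mem_iInf]
      exact hall
    rw [hK] at h1
    exact (Submodule.mem_bot _).1 h1
  have hi₀ := Nat.find_spec hex
  have hi₀0 : Nat.find hex ≠ 0 := by
    intro h0
    rw [h0, pow_zero, Ideal.one_eq_top] at hi₀
    exact hi₀ Submodule.mem_top
  obtain ⟨k, hk⟩ := Nat.exists_eq_succ_of_ne_zero hi₀0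
  have hmem : Ideal.Quotient.mk I r ∈ Ideal.span {Ideal.Quotient.mk I u} ^ k := by
    by_contra hn
    have := Nat.find_min' hex hn
    omega
  rw [Ideal.span_singleton_pow, Ideal.mem_span_singleton] at hmem
  obtain ⟨c', hc'⟩ := hmem
  obtain ⟨c, rfl⟩ := Ideal.Quotient.mk_surjective c'
  refine ⟨k, c, ?_, ?_⟩
  · by_contra hcu
    have hcm : c ∈ IsLocalRing.maximalIdeal R := (IsLocalRing.mem_maximalIdeal c).2 hcu
    rw [hmax, Ideal.mem_span_pair] at hcm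
    obtain ⟨a, b, hab⟩ := hcm
    apply hi₀
    rw [hk, Ideal.span_singleton_pow, Ideal.mem_span_singleton, hc']
    refine ⟨Ideal.Quotient.mk I b, ?_⟩
    have h1 : Ideal.Quotient.mk I c = Ideal.Quotient.mk I b * Ideal.Quotient.mk I u := by
      rw [← hab, map_add, map_mul, map_mul, hπ0, mul_zero, zero_add]
    rw [h1, pow_succ]
    ring
  · rw [← Ideal.mem_span_singleton, ← hI, ← Ideal.Quotient.eq_zero_iff_mem, map_sub, map_mul,
      map_pow, hc']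
    ring

/-- **Factorisation modulo `𝔪_V` at a regular point with parameters `(ϖ, U)`** (chart language,
any discrete valuation ring `A`, `V = C(y)` with `𝔪_V = ϖ V`). -/
theorem levelFactor_abs
    (A : Type) [CommRing A] [IsDomain A] [IsDiscreteValuationRing A]
    (E₀ : Type) [Field E₀] [Algebra A E₀] [CharZero E₀]
    (hinj : Function.Injective (algebraMap A E₀))
    (ϖ : A) (hϖ : Irreducible ϖ) (y : E₀) (hy : Transcendental A y)
    (hfd : ∃ n : ℕ, Nonempty (Module.Basis (Fin n) (chartField A E₀ y) E₀))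
    (𝔪 : Ideal (chartClosure A E₀ y)) (h𝔪 : 𝔪.IsMaximal)
    (V : ValuationSubring E₀)
    (hCV : ∀ z ∈ gaussClosure A E₀ ϖ y, z ∈ V)
    (hVC : ∀ z ∈ V, z ∈ gaussClosure A E₀ ϖ y)
    (hϖV : algebraMap A E₀ ϖ ∈ V.nonunits)
    (hdiv : ∀ z ∈ V.nonunits, z / algebraMap A E₀ ϖ ∈ V)
    (hϖ𝔪 : algebraMap A (chartClosure A E₀ y) ϖ ∈ 𝔪)
    (U : chartClosure A E₀ y) (hU𝔪 : U ∈ 𝔪)
    (hr : ∀ s : chartClosure A E₀ y, s ∈ 𝔪 →
      ∃ b : chartClosure A E₀ y, b ∉ 𝔪 ∧ ∃ c₁ c₂ : chartClosure A E₀ y,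
        (b : E₀) * s = algebraMap A E₀ ϖ * c₁ + (U : E₀) * c₂)
    (u : E₀) (huV : u ∈ V) (hun : u ∉ V.nonunits) :
    ∃ (n : ℤ) (f s : chartClosure A E₀ y), f ∉ 𝔪 ∧ s ∉ 𝔪 ∧
      (s : E₀) * u - (f : E₀) * (U : E₀) ^ n ∈ V.nonunits := by
  classical
  haveI h𝔪p : 𝔪.IsPrime := h𝔪.isPrime
  haveI hFR : IsFractionRing ↥(chartClosure A E₀ y) E₀ :=
    Fermat.Agent.H41.SS.chartClosure_isFractionRing A E₀ y hy hfd
  haveI hNoeth : IsNoetherianRing ↥(chartClosure A E₀ y) :=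
    Fermat.Agent.H41.SS.chartClosure_isNoetherianRing A E₀ hinj ϖ hϖ y hy hfd
  haveI hRN : IsNoetherianRing ↥(locAlg 𝔪) := locAlg_isNoetherianRing 𝔪
  obtain ⟨hBC, -, -⟩ := Fermat.Agent.H89.gaussClosureStatement A E₀ hinj ϖ hϖ y hy
  have hBV : ∀ s : ↥(chartClosure A E₀ y), (s : E₀) ∈ V := fun s => hCV _ (hBC _ s.2)
  have hϖ0 : algebraMap A E₀ ϖ ≠ 0 := fun h => hϖ.ne_zero (hinj (by rw [h, map_zero]))
  have h1𝔪 : (1 : chartClosure A E₀ y) ∉ 𝔪 :=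
    fun h => h𝔪p.ne_top ((Ideal.eq_top_iff_one _).2 h)
  -- Lemma T : `𝔪_V ∩ B = ϖ B`
  have hT : ∀ s : ↥(chartClosure A E₀ y), (s : E₀) ∈ V.nonunits →
      ∃ c : ↥(chartClosure A E₀ y), (s : E₀) = algebraMap A E₀ ϖ * c := by
    intro s hs
    have h1 : PiDvdSet A E₀ ϖ (gaussClosure A E₀ ϖ y) (s : E₀) :=
      ⟨(s : E₀) / algebraMap A E₀ ϖ, hVC _ (hdiv _ hs), by rw [mul_div_cancel₀ _ hϖ0]⟩
    obtain ⟨r, hr', hsr⟩ := Fermat.Agent.H34.lemmaT A E₀ hinj ϖ hϖ y hy (s : E₀) s.2 h1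
    exact ⟨⟨r, hr'⟩, by rw [hsr, pow_one, Algebra.smul_def]⟩
  have hthr : Through A E₀ y 𝔪 V := by
    intro s hs
    obtain ⟨c, hc⟩ := hT s hs
    have e : s = algebraMap A ↥(chartClosure A E₀ y) ϖ * c := Subtype.ext hc
    rw [e]
    exact 𝔪.mul_mem_right _ hϖ𝔪
  have hp : ∀ s : ↥(chartClosure A E₀ y), (s : E₀) ∈ V.nonunits →
      ∃ b : ↥(chartClosure A E₀ y), b ∉ 𝔪 ∧ ∃ c : ↥(chartClosure A E₀ y),
        (b : E₀) * s = algebraMap A E₀ ϖ * c := by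
    intro s hs
    obtain ⟨c, hc⟩ := hT s hs
    exact ⟨1, h1𝔪, c, by rw [OneMemClass.coe_one, one_mul, hc]⟩
  -- the local ring
  have hx1B : algebraMap A E₀ ϖ ∈ chartClosure A E₀ y := Subalgebra.algebraMap_mem _ ϖ
  have hx1in : InLoc A E₀ y 𝔪 (algebraMap A E₀ ϖ) := inLoc_of_mem h𝔪p.ne_top hx1B
  have hx2in : InLoc A E₀ y 𝔪 (U : E₀) := inLoc_of_mem h𝔪p.ne_top U.2
  have e1 : locOf 𝔪 (algebraMap A E₀ ϖ) hx1in =
      toLocAlg 𝔪 (algebraMap A ↥(chartClosure A E₀ y) ϖ) := Subtype.ext rfl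
  have e2 : locOf 𝔪 (U : E₀) hx2in = toLocAlg 𝔪 U := Subtype.ext rfl
  have hx1m : locOf 𝔪 (algebraMap A E₀ ϖ) hx1in ∈ maximalIdeal ↥(locAlg 𝔪) := by
    rw [e1]; exact (algebraMap_mem_maximalIdeal_iff 𝔪 _).2 hϖ𝔪
  have hx2m : locOf 𝔪 (U : E₀) hx2in ∈ maximalIdeal ↥(locAlg 𝔪) := by
    rw [e2]; exact (algebraMap_mem_maximalIdeal_iff 𝔪 _).2 hU𝔪
  have hdvd := locAlg_dvd_iff 𝔪 V hBV hthr hx1B hϖV hp
  have hmax := locAlg_hmax_of_reg 𝔪 hx1in hx2in hx1m hx2m hr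
  -- `U` is a unit of `V`
  have hgen : ∀ s : ↥(chartClosure A E₀ y), s ∈ 𝔪 →
      ∃ c₁ c₂ : E₀, InLoc A E₀ y 𝔪 c₁ ∧ InLoc A E₀ y 𝔪 c₂ ∧
        (s : E₀) = c₁ * algebraMap A E₀ ϖ + c₂ * (U : E₀) := by
    intro s hs
    obtain ⟨b, hb, c₁, c₂, h⟩ := hr s hs
    have hb0 : (b : E₀) ≠ 0 := coe_ne_zero_of_not_mem 𝔪 hb
    have hin : ∀ c : ↥(chartClosure A E₀ y), InLoc A E₀ y 𝔪 ((c : E₀) / b) := by
      intro c
      refine ⟨b, hb, ?_⟩
      have : (b : E₀) * ((c : E₀) / b) = c := by field_simp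
      rw [this]; exact c.2
    refine ⟨(c₁ : E₀) / b, (c₂ : E₀) / b, hin c₁, hin c₂, ?_⟩
    field_simp
    rw [mul_comm, h]; ring
  have hUn : (U : E₀) ∉ V.nonunits :=
    chart_x2_not_mem_nonunits hy hϖ 𝔪 h𝔪 V hCV hBV hthr hϖV hgen
  have hU0 : (U : E₀) ≠ 0 := by
    intro h0
    apply hUn
    rw [h0, ValuationSubring.mem_nonunits_iff, map_zero]
    exact zero_lt_one
  have hUinv : (U : E₀)⁻¹ ∈ V := vs_mem_of_not_nonunits_inv hUn
  -- factorisation of the elements of `B ∖ 𝔪_V`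
  have hfac : ∀ b : ↥(chartClosure A E₀ y), (b : E₀) ∉ V.nonunits →
      ∃ (k : ℕ) (f t : ↥(chartClosure A E₀ y)), f ∉ 𝔪 ∧ t ∉ 𝔪 ∧
        (t : E₀) * b - (f : E₀) * (U : E₀) ^ k ∈ V.nonunits := by
    intro b hb
    have hnd : ¬ locOf 𝔪 (algebraMap A E₀ ϖ) hx1in ∣ toLocAlg 𝔪 b :=
      fun h => hb ((hdvd _).1 h)
    obtain ⟨k, e, he, hdiv'⟩ := krull_factor_mod _ _ hmax (toLocAlg 𝔪 b) hnd
    have h1 : (b : E₀) - (e : E₀) * (U : E₀) ^ k ∈ V.nonunits := (hdvd _).1 hdiv'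
    obtain ⟨t, ht, hte⟩ := (mem_locAlg_iff 𝔪).1 e.2
    have hf : (⟨(t : E₀) * e, hte⟩ : ↥(chartClosure A E₀ y)) ∉ 𝔪 := by
      intro hfm
      have h2 : toLocAlg 𝔪 ⟨(t : E₀) * e, hte⟩ ∈ maximalIdeal ↥(locAlg 𝔪) :=
        (algebraMap_mem_maximalIdeal_iff 𝔪 _).2 hfm
      have h3 : toLocAlg 𝔪 ⟨(t : E₀) * e, hte⟩ = toLocAlg 𝔪 t * e := Subtype.ext rfl
      have h4 : IsUnit (toLocAlg 𝔪 t) := by
        by_contra hn
        exact ht ((algebraMap_mem_maximalIdeal_iff 𝔪 t).1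
          ((IsLocalRing.mem_maximalIdeal _).2 hn))
      rw [h3] at h2
      exact (IsLocalRing.mem_maximalIdeal _).1 h2 (h4.mul he)
    refine ⟨k, ⟨(t : E₀) * e, hte⟩, t, hf, ht, ?_⟩
    have e3 : (t : E₀) * b - ((t : E₀) * e) * (U : E₀) ^ k =
        ((b : E₀) - (e : E₀) * (U : E₀) ^ k) * (t : E₀) := by ring
    show (t : E₀) * b - ((t : E₀) * e) * (U : E₀) ^ k ∈ V.nonunits
    rw [e3]
    exact vs_mem_nonunits_of_mul h1 (hBV t)
  -- `u = (h u) / h`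
  obtain ⟨h, hh, hnd, hint⟩ := hVC u huV
  have hh0 : h ≠ 0 := by
    rintro rfl
    exact hnd ⟨0, Subalgebra.zero_mem _, by simp⟩
  have hhB : h ∈ chartClosure A E₀ y := by
    obtain ⟨H₀, rfl⟩ := (Fermat.Agent.H87.KL.mem_chartRing_iff y h).1 hh
    exact Fermat.Agent.H41.SS.etale_aeval_mem_chartClosure A E₀ y H₀
  have hhinv : h⁻¹ ∈ gaussClosure A E₀ ϖ y :=
    ⟨h, hh, hnd, by rw [mul_inv_cancel₀ hh0]; exact Subalgebra.one_mem _⟩
  have hhn : h ∉ V.nonunits := vs_not_nonunits_of_inv_mem hh0 (hCV _ hhinv)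
  have hbn : h * u ∉ V.nonunits := by
    intro hc
    rcases vs_nonunits_of_mul_mem (hBV ⟨h, hhB⟩) huV hc with h1 | h1
    · exact hhn h1
    · exact hun h1
  obtain ⟨k₁, f₁, t₁, hf₁, ht₁, E₁⟩ := hfac ⟨h * u, hint⟩ hbn
  obtain ⟨k₂, f₂, t₂, hf₂, ht₂, E₂⟩ := hfac ⟨h, hhB⟩ hhn
  refine ⟨(k₁ : ℤ) - k₂, t₂ * f₁, t₁ * f₂, ?_, ?_, ?_⟩
  · intro hmem
    rcases h𝔪p.mem_or_mem hmem with h' | h'
    · exact ht₂ h'
    · exact hf₁ h'
  · intro hmem
    rcases h𝔪p.mem_or_mem hmem with h' | h'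
    · exact ht₁ h'
    · exact hf₂ h'
  · have hUk : ((U : E₀) ^ k₂)⁻¹ ∈ V := by
      rw [← inv_pow]
      exact V.pow_mem hUinv k₂
    have hUk0 : (U : E₀) ^ k₂ ≠ 0 := pow_ne_zero _ hU0
    have key : ((t₁ * f₂ : ↥(chartClosure A E₀ y)) : E₀) * u -
        ((t₂ * f₁ : ↥(chartClosure A E₀ y)) : E₀) * (U : E₀) ^ ((k₁ : ℤ) - k₂) =
        ((t₁ : E₀) * u * ((f₂ : E₀) * (U : E₀) ^ k₂ - (t₂ : E₀) * h) +
          (t₂ : E₀) * ((t₁ : E₀) * (h * u) - (f₁ : E₀) * (U : E₀) ^ k₁)) *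
          ((U : E₀) ^ k₂)⁻¹ := by
      rw [zpow_sub₀ hU0, zpow_natCast, zpow_natCast]
      push_cast
      field_simp
      ring
    rw [key]
    refine vs_mem_nonunits_of_mul (vs_nonunits_add ?_ ?_) hUk
    · have h1 : (f₂ : E₀) * (U : E₀) ^ k₂ - (t₂ : E₀) * h ∈ V.nonunits := by
        have := vs_nonunits_neg E₂
        rwa [neg_sub] at this
      rw [mul_comm]
      exact vs_mem_nonunits_of_mul h1 (V.mul_mem _ _ (hBV t₁) huV)
    · rw [mul_comm]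
      exact vs_mem_nonunits_of_mul E₁ (hBV t₂)

/-- **(F1-core)** `ModelLevelFactorStatement M q` for `4 ∣ M`, `q` odd, `q ∤ M`. -/
theorem modelLevelFactor_h4 (M q : ℕ) [NeZero M] [NeZero q] (hq : q.Prime) (hq2 : q ≠ 2)
    (hqM : ¬ q ∣ M) (h4 : 4 ∣ M) : Fermat.Agent.H41.ORD.ModelLevelFactorStatement M q := by
  intro K₁ _ _ _ A₀ _ _ _ _ _ _ _ hqA ϖ hϖ x hx H hHS 𝔫 h𝔫 hϖ𝔫 a U hU hU𝔫 y hyV hyu
  haveI : CharZero K₁ := algebraRat.charZero K₁
  haveI : CharZero (ModelField K₁ M) :=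
    charZero_of_injective_algebraMap (algebraMap K₁ (ModelField K₁ M)).injective
  haveI h𝔫p := h𝔫.isPrime
  have hinj : Function.Injective (algebraMap A₀ (ModelField K₁ M)) := by
    rw [IsScalarTower.algebraMap_eq A₀ K₁ (ModelField K₁ M)]
    exact (algebraMap K₁ (ModelField K₁ M)).injective.comp (IsFractionRing.injective A₀ K₁)
  have hxtr : Transcendental A₀ x := Fermat.Agent.H58.modelTranscendental_jq M K₁ A₀ x hx
  have hfd := Fermat.Agent.H57.SS.modelFinite M K₁ A₀ x hx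
  have hQ := Fermat.Agent.H48.QExp.modelQExp_j M q hq hqM
  have hCV : ∀ z ∈ gaussClosure A₀ (ModelField K₁ M) ϖ x,
      z ∈ Fermat.Agent.H7.SS2.vInf K₁ A₀ M := fun z hz =>
    Fermat.Agent.H41.SS.mem_gaussValM_of_mem_gaussClosure_gen M jq (jqModC ℤ)
      (by rw [coeffMap_jqModC, jqModC_rat])
      (fun k _ => by
        rw [coeffMap_jqModC]
        have hc : (jqModC k).coeff (-1 : ℤ) ≠ 0 := by
          rw [ModularCurve.coeff_jqModC_neg_one]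
          exact one_ne_zero
        have := HahnSeries.order_le_of_coeff_ne_zero hc
        omega) hϖ x hx hxtr z hz
  have hVC : ∀ z ∈ Fermat.Agent.H7.SS2.vInf K₁ A₀ M,
      z ∈ gaussClosure A₀ (ModelField K₁ M) ϖ x := fun z hz =>
    Fermat.Agent.H41.SS.mem_gaussClosure_of_mem_gaussValM_gen M q jq hQ hqA hϖ x hx z hz
  have hϖV : algebraMap A₀ (ModelField K₁ M) ϖ ∈ (Fermat.Agent.H7.SS2.vInf K₁ A₀ M).nonunits :=
    Fermat.Agent.H41.SS.pi_mem_nonunits_gaussValM hϖ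
  have hdiv : ∀ z ∈ (Fermat.Agent.H7.SS2.vInf K₁ A₀ M).nonunits,
      z / algebraMap A₀ (ModelField K₁ M) ϖ ∈ Fermat.Agent.H7.SS2.vInf K₁ A₀ M :=
    fun z hz => Fermat.Agent.H41.SS.div_pi_mem_gaussValM hϖ z hz
  -- `𝔫 B_𝔫 = (ϖ, g(H))`
  obtain ⟨hHB, g, hgm, hgirr, U₀, hU₀, hU₀𝔫, hgen⟩ :=
    Fermat.Agent.H7.SS2.levelReg_h4_explicit M q hq hq2 hqM h4 K₁ A₀ hqA ϖ hϖ x hx H hHS
      𝔫 h𝔫 hϖ𝔫
  -- `g = (X - a) c + g(a)`
  obtain ⟨c, hgc⟩ : ∃ c : A₀[X], g = (X - C a) * c + C (g.eval a) := by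
    refine ⟨g /ₘ (X - C a), ?_⟩
    have h1 := Polynomial.modByMonic_add_div g (X - C a)
    rw [Polynomial.modByMonic_X_sub_C_eq_C_eval] at h1
    rw [add_comm]
    exact h1.symm
  have hcB : aeval H c ∈ chartClosure A₀ (ModelField K₁ M) x := by
    have h1 := Subalgebra.aeval_coe (chartClosure A₀ (ModelField K₁ M) x) ⟨H, hHB⟩ c
    rw [show ((⟨H, hHB⟩ : ↥(chartClosure A₀ (ModelField K₁ M) x)) : ModelField K₁ M) = H
      from rfl] at h1
    rw [h1]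
    exact Subtype.mem _
  have hU₀' : (U₀ : ModelField K₁ M) = (U : ModelField K₁ M) * aeval H c +
      algebraMap A₀ (ModelField K₁ M) (g.eval a) := by
    rw [hU₀, hU]
    conv_lhs => rw [hgc]
    rw [map_add, map_mul, map_sub, aeval_X, aeval_C, aeval_C]
  -- `g(a) ∈ ϖ A₀`
  have hga : ϖ ∣ g.eval a := by
    by_contra hnd
    have hu : IsUnit (g.eval a) := by
      by_contra hn
      apply hnd
      have h1 : g.eval a ∈ IsLocalRing.maximalIdeal A₀ := (IsLocalRing.mem_maximalIdeal _).2 hn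
      rw [hϖ.maximalIdeal_eq, Ideal.mem_span_singleton] at h1
      exact h1
    have h2 : algebraMap A₀ ↥(chartClosure A₀ (ModelField K₁ M) x) (g.eval a) ∈ 𝔫 := by
      have e : algebraMap A₀ ↥(chartClosure A₀ (ModelField K₁ M) x) (g.eval a) =
          U₀ - U * ⟨aeval H c, hcB⟩ := by
        apply Subtype.ext
        show algebraMap A₀ (ModelField K₁ M) (g.eval a) =
          (U₀ : ModelField K₁ M) - (U : ModelField K₁ M) * aeval H c
        rw [hU₀']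
        ring
      rw [e]
      exact 𝔫.sub_mem hU₀𝔫 (𝔫.mul_mem_right _ hU𝔫)
    exact h𝔫p.ne_top (Ideal.eq_top_of_isUnit_mem _ h2
      (hu.map (algebraMap A₀ ↥(chartClosure A₀ (ModelField K₁ M) x))))
  obtain ⟨a', ha'⟩ := hga
  have hr : ∀ s : ↥(chartClosure A₀ (ModelField K₁ M) x), s ∈ 𝔫 →
      ∃ b : ↥(chartClosure A₀ (ModelField K₁ M) x), b ∉ 𝔫 ∧
        ∃ c₁ c₂ : ↥(chartClosure A₀ (ModelField K₁ M) x),
          (b : ModelField K₁ M) * s =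
            algebraMap A₀ (ModelField K₁ M) ϖ * c₁ + (U : ModelField K₁ M) * c₂ := by
    intro s hs
    obtain ⟨t, ht, b₁, b₂, h⟩ := hgen s hs
    refine ⟨t, ht, b₁ + algebraMap A₀ ↥(chartClosure A₀ (ModelField K₁ M) x) a' * b₂,
      ⟨aeval H c, hcB⟩ * b₂, ?_⟩
    have h' := congrArg (fun z : ↥(chartClosure A₀ (ModelField K₁ M) x) =>
      (z : ModelField K₁ M)) h
    have h'' : (t : ModelField K₁ M) * (s : ModelField K₁ M) =
        algebraMap A₀ (ModelField K₁ M) ϖ * (b₁ : ModelField K₁ M) +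
          (U₀ : ModelField K₁ M) * (b₂ : ModelField K₁ M) := h'
    show (t : ModelField K₁ M) * (s : ModelField K₁ M) =
      algebraMap A₀ (ModelField K₁ M) ϖ *
        ((b₁ : ModelField K₁ M) + algebraMap A₀ (ModelField K₁ M) a' * (b₂ : ModelField K₁ M)) +
      (U : ModelField K₁ M) * (aeval H c * (b₂ : ModelField K₁ M))
    rw [h'', hU₀', ha', map_mul]
    ring
  exact levelFactor_abs A₀ (ModelField K₁ M) hinj ϖ hϖ x hxtr hfd 𝔫 h𝔫
    (Fermat.Agent.H7.SS2.vInf K₁ A₀ M) hCV hVC hϖV hdiv hϖ𝔫 U hU𝔫 hr y hyV hyu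

end Fermat.Agent.H7.ORD

end
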