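import Mathlib
import Fermat.Agent.H66.ORD.TotIdeal
import Fermat.Agent.H84.ORD.NodalSpecA
import Fermat.Agent.H7.SS2.CuspGen

/-!
# P-ORD, block B1, row 1157 [XY], part (b) : THE NODES ARE NOT CUSPIDAL (helper7)

`nmNonCusp` : if the centre of a place `P` of `F = ℚ̄(X₀(M p))` lies on both components
(`NmIdealOo`, `NmIdealZero`), then the chart of `P` is `j` : `nmY A P = nmJ (M p)`.

Proof : descent to the number field `K = ℚ(ζ_M)`, `A₀ = A ∩ K`; the centre of `P` on the chart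
`B(j⁻¹)` over `A₀` lies in a maximal ideal `𝔪 ∋ ϖ, j⁻¹` through which both Gauss valuations pass :
this contradicts `Fermat.Agent.H7.SS2.cuspGenR`.

Also : `nmCentreIdeal` : the centre of `P` on a chart `B(y₁)` over `(K₁, A ∩ K₁)` as an ideal, with
`mem_nmCentreIdeal_iff`, `through_vInf_of_idealOo`, `through_vZero_of_idealZero` (any number
field `K₁`, any chart `y₁` with `bc y₁ = nmY A P`).
-/

set_option autoImplicit false
set_option maxSynthPendingDepth 3
set_option linter.unusedSectionVars false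
set_option linter.unusedVariables false
set_option linter.style.haveILetI false
set_option synthInstance.maxHeartbeats 400000
set_option maxHeartbeats 1600000

noncomputable section

namespace Fermat.Agent.H7.ORD

open ModularCurve AlgebraicCurve Polynomial
open Fermat.Agent.H22.KL Fermat.Agent.H7.SS Fermat.Agent.H7.SS2 Fermat.Agent.H93.KL
open Fermat.Agent.H9.E6 Fermat.Agent.H66 Fermat.Agent.H66.SS Fermat.Agent.H84.ORD
open Fermat.Agent.H72.FF Fermat.Agent.H82.SS Fermat.Agent.H94.FF Fermat.Agent.H66.ORD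
open Fermat.Agent.H11.SS2

section Dict

variable (N : ℕ) [NeZero N] (A : ValuationSubring Qb) (P : Place Qb (FLb N))
variable {K₁ : Type} [Field K₁] [Algebra ℚ K₁] (ι : K₁ →+* Qb)
  [Algebra ↥(A.comap ι) (ModelField K₁ N)]
  [IsScalarTower ↥(A.comap ι) K₁ (ModelField K₁ N)]

/-- the chart `B(y₁)` over `A ∩ K₁` maps into the composite valuation ring of `P`, if `bc y₁` is
the chart coordinate of `P`. -/
theorem bc_mem_nmComp (y₁ : ModelField K₁ N)
    (hy : klBc ι (modularFunctionFieldFull N) y₁ = nmY A P)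
    (s : ModelField K₁ N) (hs : s ∈ chartClosure ↥(A.comap ι) (ModelField K₁ N) y₁) :
    klBc ι (modularFunctionFieldFull N) s ∈ nmComp A P (nm_deg_one P) := by
  have h1 := bc_mem_nmChart N A ι y₁ s hs
  rw [hy] at h1
  exact nmChart_nmY_le_nmInt A P h1

/-- the ring homomorphism `B(y₁) → {f | f(P) ∈ A}` -/
def nmCentreHom (y₁ : ModelField K₁ N)
    (hy : klBc ι (modularFunctionFieldFull N) y₁ = nmY A P) :
    ↥(chartClosure ↥(A.comap ι) (ModelField K₁ N) y₁) →+* ↥(nmComp A P (nm_deg_one P)) :=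
  RingHom.codRestrict
    ((klBc ι (modularFunctionFieldFull N)).comp
      (chartClosure ↥(A.comap ι) (ModelField K₁ N) y₁).toSubring.subtype)
    (nmComp A P (nm_deg_one P)).toSubring
    (fun s => bc_mem_nmComp N A P ι y₁ hy s s.2)

/-- **the centre of `P` on the chart `B(y₁)` over `A ∩ K₁`** -/
def nmCentreIdeal (y₁ : ModelField K₁ N)
    (hy : klBc ι (modularFunctionFieldFull N) y₁ = nmY A P) :
    Ideal ↥(chartClosure ↥(A.comap ι) (ModelField K₁ N) y₁) :=
  Ideal.comap (nmCentreHom N A P ι y₁ hy) (IsLocalRing.maximalIdeal _)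

theorem mem_nmCentreIdeal_iff (y₁ : ModelField K₁ N)
    (hy : klBc ι (modularFunctionFieldFull N) y₁ = nmY A P)
    (s : ↥(chartClosure ↥(A.comap ι) (ModelField K₁ N) y₁)) :
    s ∈ nmCentreIdeal N A P ι y₁ hy ↔
      klBc ι (modularFunctionFieldFull N) (s : ModelField K₁ N) ∈ nmMax A P := by
  unfold nmCentreIdeal
  rw [Ideal.mem_comap, ← ValuationSubring.coe_mem_nonunits_iff, mem_nonunits_nmComp_iff]
  rfl

instance nmCentreIdeal_isPrime (y₁ : ModelField K₁ N)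
    (hy : klBc ι (modularFunctionFieldFull N) y₁ = nmY A P) :
    (nmCentreIdeal N A P ι y₁ hy).IsPrime := by
  unfold nmCentreIdeal
  exact Ideal.comap_isPrime _ _

theorem nmCentreIdeal_ne_top (y₁ : ModelField K₁ N)
    (hy : klBc ι (modularFunctionFieldFull N) y₁ = nmY A P) :
    nmCentreIdeal N A P ι y₁ hy ≠ ⊤ :=
  (nmCentreIdeal_isPrime N A P ι y₁ hy).ne_top

/-- the nonunits of `A ∩ K₁` lie in the centre -/
theorem algebraMap_mem_nmCentreIdeal (y₁ : ModelField K₁ N)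
    (hy : klBc ι (modularFunctionFieldFull N) y₁ = nmY A P)
    (a : ↥(A.comap ι)) (ha : ¬ IsUnit a) :
    algebraMap ↥(A.comap ι) ↥(chartClosure ↥(A.comap ι) (ModelField K₁ N) y₁) a ∈
      nmCentreIdeal N A P ι y₁ hy := by
  rw [mem_nmCentreIdeal_iff]
  have h1 : ((algebraMap ↥(A.comap ι) ↥(chartClosure ↥(A.comap ι) (ModelField K₁ N) y₁) a :
      ↥(chartClosure ↥(A.comap ι) (ModelField K₁ N) y₁)) : ModelField K₁ N) =
      algebraMap K₁ (ModelField K₁ N) (a : K₁) := by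
    show algebraMap ↥(A.comap ι) (ModelField K₁ N) a = _
    rw [IsScalarTower.algebraMap_apply ↥(A.comap ι) K₁ (ModelField K₁ N)]
    rfl
  rw [h1, Fermat.Agent.H62.SS.klBc_algebraMap']
  refine ⟨ι (a : K₁), ?_, hasVal_const P _⟩
  rw [ValuationSubring.mem_nonunits_iff_exists_mem_maximalIdeal]
  refine ⟨a.2, ?_⟩
  rw [IsLocalRing.mem_maximalIdeal, mem_nonunits_iff]
  intro hu
  apply ha
  obtain ⟨c, hc⟩ := isUnit_iff_exists_inv.mp hu
  have hc' : ι (a : K₁) * (c : Qb) = 1 := congrArg Subtype.val hc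
  have ha0 : (a : K₁) ≠ 0 := by
    intro h0
    rw [h0, map_zero, zero_mul] at hc'
    exact zero_ne_one hc'
  have hcK : (c : Qb) = ι ((a : K₁)⁻¹) := by
    rw [map_inv₀]
    exact eq_inv_of_mul_eq_one_right hc'
  have hmem : (a : K₁)⁻¹ ∈ A.comap ι := by
    rw [ValuationSubring.mem_comap, ← hcK]
    exact c.2
  exact isUnit_iff_exists_inv.mpr ⟨⟨(a : K₁)⁻¹, hmem⟩, Subtype.ext (mul_inv_cancel₀ ha0)⟩

end Dict

section Through

variable (M p : ℕ) [NeZero M] [NeZero p] (hcop : Nat.Coprime M p)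
  (A : ValuationSubring Qb) (P : Place Qb (FLb (M * p)))
variable {K₁ : Type} [Field K₁] [Algebra ℚ K₁] (ι : K₁ →+* Qb)
  [IsDiscreteValuationRing ↥(A.comap ι)]
  [Algebra ↥(A.comap ι) (ModelField K₁ (M * p))]
  [IsScalarTower ↥(A.comap ι) K₁ (ModelField K₁ (M * p))]

/-- `NmIdealOo` ⟹ the Gauss valuation at `∞` passes through (every ideal containing) the centre
of `P`. -/
theorem through_vInf_of_idealOo (hoo : NmIdealOo M p A P) (y₁ : ModelField K₁ (M * p))
    (hy : klBc ι (modularFunctionFieldFull (M * p)) y₁ = nmY A P)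
    (𝔪 : Ideal ↥(chartClosure ↥(A.comap ι) (ModelField K₁ (M * p)) y₁))
    (hle : nmCentreIdeal (M * p) A P ι y₁ hy ≤ 𝔪) :
    Through ↥(A.comap ι) (ModelField K₁ (M * p)) y₁ 𝔪 (vInf K₁ ↥(A.comap ι) (M * p)) := by
  intro s hs
  apply hle
  rw [mem_nmCentreIdeal_iff]
  have hV : klBc ι (modularFunctionFieldFull (M * p)) (s : ModelField K₁ (M * p)) ∈
      gaussOBar (M * p) A :=
    (bc_mem_gaussOBar_iff ι A (M * p) _).2 (ValuationSubring.nonunits_subset hs)
  have hB := bc_mem_nmChart (M * p) A ι y₁ s s.2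
  rw [hy] at hB
  refine hoo _ hB hV ?_
  rw [nmRedOo_eq_zero_iff]
  exact (bc_gaussRedBar_eq_zero_iff ι A (M * p) _ hV).2 hs

/-- `NmIdealZero` ⟹ the Gauss valuation at `0` passes through (every ideal containing) the
centre of `P`. -/
theorem through_vZero_of_idealZero (h0 : NmIdealZero M p hcop A P)
    (W₁ : ModelField K₁ (M * p) ≃ₐ[K₁] ModelField K₁ (M * p))
    (hW₁ : ∀ f, klBc ι (modularFunctionFieldFull (M * p)) (W₁ f) =
      nmW M p hcop (klBc ι (modularFunctionFieldFull (M * p)) f))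
    (y₁ : ModelField K₁ (M * p))
    (hy : klBc ι (modularFunctionFieldFull (M * p)) y₁ = nmY A P)
    (𝔪 : Ideal ↥(chartClosure ↥(A.comap ι) (ModelField K₁ (M * p)) y₁))
    (hle : nmCentreIdeal (M * p) A P ι y₁ hy ≤ 𝔪) :
    Through ↥(A.comap ι) (ModelField K₁ (M * p)) y₁ 𝔪 (vZero K₁ ↥(A.comap ι) (M * p) W₁) := by
  intro s hs
  apply hle
  rw [mem_nmCentreIdeal_iff]
  have hV : klBc ι (modularFunctionFieldFull (M * p)) (s : ModelField K₁ (M * p)) ∈
      nmV0 M p hcop A :=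
    (bc_mem_nmV0_iff M p hcop ι A W₁ hW₁ _).2 (ValuationSubring.nonunits_subset hs)
  have hB := bc_mem_nmChart (M * p) A ι y₁ s s.2
  rw [hy] at hB
  refine h0 _ hB hV ?_
  exact (bc_nmRed0_eq_zero_iff M p hcop ι A W₁ hW₁ _ hV).2 hs

end Through

/-- **[XY] (b) : THE NODES ARE NOT CUSPIDAL.** -/
theorem nmNonCusp (M p : ℕ) [NeZero M] [NeZero p] (A : ValuationSubring Qb)
    (h : NmSetup M p A) (P : Place Qb (FLb (M * p)))
    (hoo : NmIdealOo M p A P) (h0 : NmIdealZero M p h.cop A P) :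
    nmY A P = nmJ (M * p) := by
  classical
  by_contra hne
  have hJ : nmJ (M * p) ∉ nmInt A P := by
    intro hJ
    apply hne
    unfold nmY
    rw [if_pos hJ]
  have hY : nmY A P = (nmJ (M * p))⁻¹ := by
    unfold nmY
    rw [if_neg hJ]
  have hJmax : (nmJ (M * p))⁻¹ ∈ nmMax A P :=
    (mem_nmInt_or_inv_mem_nmMax A P (nmJ (M * p))).resolve_left hJ
  have hp := h.prime
  have hpM : ¬ p ∣ M := (Nat.Prime.coprime_iff_not_dvd hp).1 h.cop.symm
  -- the number field `ℚ(ζ_M)`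
  obtain ⟨ζ, hζ⟩ := HasEnoughRootsOfUnity.exists_primitiveRoot Qb M
  let K : IntermediateField ℚ Qb := IntermediateField.adjoin ℚ {ζ}
  haveI : FiniteDimensional ℚ ↥K := IntermediateField.adjoin.finiteDimensional
    ((AlgebraicClosure.isAlgebraic ℚ).isAlgebraic ζ).isIntegral
  haveI : NumberField ↥K := ordNumberField_of_fd ↥K
  let ι : ↥K →+* Qb := algebraMap ↥K Qb
  have hpL : ((p : ℕ) : Qb) ≠ 0 := Nat.cast_ne_zero.mpr hp.ne_zero
  haveI hDVR : IsDiscreteValuationRing ↥(A.comap ι) :=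
    Fermat.Agent.H93.KL.comap_isDiscreteValuationRing ι A hpL h.liesOver
  obtain ⟨ϖ, hϖ⟩ := IsDiscreteValuationRing.exists_irreducible ↥(A.comap ι)
  letI := modelAlgebra ↥K (A.comap ι) (M * p)
  haveI := modelAlgebra_isScalarTower ↥K (A.comap ι) (M * p)
  have hnu : ¬ IsUnit ((p : ℕ) : ↥(A.comap ι)) := by
    have h1 := Fermat.Agent.H93.KL.natCast_mem_nonunits_comap ι A h.liesOver
    rw [ValuationSubring.mem_nonunits_iff_exists_mem_maximalIdeal] at h1
    obtain ⟨hmem, hmax⟩ := h1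
    rw [IsLocalRing.mem_maximalIdeal, mem_nonunits_iff] at hmax
    intro hu
    apply hmax
    have e : (⟨(p : ↥K), hmem⟩ : ↥(A.comap ι)) = ((p : ℕ) : ↥(A.comap ι)) :=
      Subtype.ext (by simp)
    rw [e]
    exact hu
  obtain ⟨W₁, hW₁, hWbc⟩ := exists_modelW M p h.cop ι
  have hζK : ∃ ζ' : ↥K, IsPrimitiveRoot ζ' M :=
    ⟨⟨ζ, IntermediateField.mem_adjoin_simple_self ℚ ζ⟩,
      IsPrimitiveRoot.of_map_of_injective (f := ι) (show IsPrimitiveRoot (ι ⟨ζ, _⟩) M from hζ)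
        ι.injective⟩
  -- the coordinate
  set x : ModelField ↥K (M * p) :=
    Fermat.Agent.H62.SS.ratK (K₁ := ↥K) (modularFunctionFieldFull (M * p)) (nmJq (M * p))
    with hxdef
  have hx : (x : LaurentSeries ↥K) = coeffEmb ↥K jq := rfl
  have hbx : klBc ι (modularFunctionFieldFull (M * p)) x⁻¹ = nmY A P := by
    rw [hY, map_inv₀, hxdef, Fermat.Agent.H62.SS.klBc_ratK, ← nmJ_eq_ratBar]
  -- a maximal ideal containing the centre
  obtain ⟨𝔪, h𝔪, hle⟩ := Ideal.exists_le_maximal _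
    (nmCentreIdeal_ne_top (M * p) A P ι x⁻¹ hbx)
  have hϖ𝔪 : algebraMap ↥(A.comap ι)
      ↥(chartClosure ↥(A.comap ι) (ModelField ↥K (M * p)) x⁻¹) ϖ ∈ 𝔪 :=
    hle (algebraMap_mem_nmCentreIdeal (M * p) A P ι x⁻¹ hbx ϖ hϖ.not_isUnit)
  have hx𝔪 : ∀ s : ↥(chartClosure ↥(A.comap ι) (ModelField ↥K (M * p)) x⁻¹),
      (s : ModelField ↥K (M * p)) = x⁻¹ → s ∈ 𝔪 := by
    intro s hs
    apply hle
    rw [mem_nmCentreIdeal_iff, hs, hbx, hY]
    exact hJmax
  have hT1 := through_vInf_of_idealOo M p A P ι hoo x⁻¹ hbx 𝔪 hle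
  have hT2 := through_vZero_of_idealZero M p h.cop A P ι h0 W₁ hWbc x⁻¹ hbx 𝔪 hle
  exact (cuspGenR M p hp hpM ↥K ↥(A.comap ι) hnu hζK ϖ hϖ x hx W₁ hW₁ 𝔪 h𝔪 hϖ𝔪 hx𝔪).1
    ⟨hT1, hT2⟩

end Fermat.Agent.H7.ORD

end
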