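import Mathlib
import Fermat.Agent.H41.ORD.ValCore
import Fermat.Agent.H7.ORD.LevelFactor
import Fermat.Agent.H7.SS2.CuspGen
import Fermat.Agent.H66.ORD.TotIdeal
import Fermat.Agent.H67.SS.RegMono

/-!
# P-ORD, block B1, row 1158 [DVR] : THE CUSP CORE (chart `1/j`) (helper7)

* `regFactor_abs` (chart language, any discrete valuation ring) : at a maximal ideal `𝔪` of
  `B(y)` which is a regular point `(ϖ, U)` of the branch `V` (clauses (thr), (p), (r)) : `U` is a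
  unit of `V` and every `b ∈ B ∖ 𝔪_V` is `t b ≡ f U ^ k mod 𝔪_V`, `f, t ∈ B ∖ 𝔪`.
* `chartVal_abs` : hence VAL on `B` : for `a, c ∈ B` there are `t, d ∈ B`, `d ∉ 𝔪`, with
  `d a ≡ t c` or `d c ≡ t a` modulo `𝔪_V`.
* `cuspVal` : VAL on the chart `B(1/j)` of the model of `X₀(M q)` at the maximal ideals
  `𝔪 ∋ ϖ, 1/j` through `V_∞` (from `Fermat.Agent.H7.SS2.cuspGenR` and helper66's `ker_model`).
* `modelValGen_cusp : Fermat.Agent.H41.ORD.ModelValGenStatement M q R jq⁻¹ True` for every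
  multiple `R > 0` of `M`, every prime `q ∤ M`; `modelValGen_cusp_aux` : `R = ktAuxRoot M q`.
-/

set_option autoImplicit false
set_option linter.unusedSectionVars false
set_option linter.unusedVariables false
set_option linter.style.haveILetI false
set_option linter.unnecessarySimpa false
set_option maxHeartbeats 1000000

noncomputable section

namespace Fermat.Agent.H7.ORD

open Polynomial IsLocalRing ModularCurve AlgebraicCurve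
open Fermat.Agent.H22.KL Fermat.Agent.H45 Fermat.Agent.H60.SS2

section Abs

variable (A : Type) [CommRing A] [IsDomain A] [IsDiscreteValuationRing A]
  (E₀ : Type) [Field E₀] [Algebra A E₀] [CharZero E₀]

/-- **Factorisation modulo `𝔪_V` of the elements of `B ∖ 𝔪_V`** at a regular point `(ϖ, U)` of
the branch `V`. -/
theorem regFactor_abs
    (hinj : Function.Injective (algebraMap A E₀))
    (ϖ : A) (hϖ : Irreducible ϖ) (y : E₀) (hy : Transcendental A y)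
    (hfd : ∃ n : ℕ, Nonempty (Module.Basis (Fin n) (chartField A E₀ y) E₀))
    (𝔪 : Ideal (chartClosure A E₀ y)) (h𝔪 : 𝔪.IsMaximal)
    (V : ValuationSubring E₀)
    (hCV : ∀ z ∈ gaussClosure A E₀ ϖ y, z ∈ V)
    (hϖV : algebraMap A E₀ ϖ ∈ V.nonunits)
    (hthr : Through A E₀ y 𝔪 V)
    (hp : ∀ s : chartClosure A E₀ y, (s : E₀) ∈ V.nonunits →
      ∃ b : chartClosure A E₀ y, b ∉ 𝔪 ∧ ∃ c : chartClosure A E₀ y,
        (b : E₀) * s = algebraMap A E₀ ϖ * c)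
    (U : chartClosure A E₀ y) (hU𝔪 : U ∈ 𝔪)
    (hr : ∀ s : chartClosure A E₀ y, s ∈ 𝔪 →
      ∃ b : chartClosure A E₀ y, b ∉ 𝔪 ∧ ∃ c₁ c₂ : chartClosure A E₀ y,
        (b : E₀) * s = algebraMap A E₀ ϖ * c₁ + (U : E₀) * c₂) :
    (U : E₀) ∉ V.nonunits ∧
    ∀ b : chartClosure A E₀ y, (b : E₀) ∉ V.nonunits →
      ∃ (k : ℕ) (f t : chartClosure A E₀ y), f ∉ 𝔪 ∧ t ∉ 𝔪 ∧
        (t : E₀) * b - (f : E₀) * (U : E₀) ^ k ∈ V.nonunits := by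
  classical
  haveI h𝔪p : 𝔪.IsPrime := h𝔪.isPrime
  haveI hFR : IsFractionRing ↥(chartClosure A E₀ y) E₀ :=
    Fermat.Agent.H41.SS.chartClosure_isFractionRing A E₀ y hy hfd
  haveI hNoeth : IsNoetherianRing ↥(chartClosure A E₀ y) :=
    Fermat.Agent.H41.SS.chartClosure_isNoetherianRing A E₀ hinj ϖ hϖ y hy hfd
  haveI hRN : IsNoetherianRing ↥(locAlg 𝔪) := locAlg_isNoetherianRing 𝔪
  obtain ⟨hBC, -, -⟩ := Fermat.Agent.H89.gaussClosureStatement A E₀ hinj ϖ hϖ y hy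
  have hBV : ∀ s : ↥(chartClosure A E₀ y), (s : E₀) ∈ V := fun s => hCV _ (hBC _ s.2)
  have hx1B : algebraMap A E₀ ϖ ∈ chartClosure A E₀ y := Subalgebra.algebraMap_mem _ ϖ
  have hϖ𝔪 : algebraMap A ↥(chartClosure A E₀ y) ϖ ∈ 𝔪 :=
    hthr (algebraMap A ↥(chartClosure A E₀ y) ϖ) hϖV
  have hx1in : InLoc A E₀ y 𝔪 (algebraMap A E₀ ϖ) := inLoc_of_mem h𝔪p.ne_top hx1B
  have hx2in : InLoc A E₀ y 𝔪 (U : E₀) := inLoc_of_mem h𝔪p.ne_top U.2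
  have e1 : locOf 𝔪 (algebraMap A E₀ ϖ) hx1in =
      toLocAlg 𝔪 (algebraMap A ↥(chartClosure A E₀ y) ϖ) := Subtype.ext rfl
  have e2 : locOf 𝔪 (U : E₀) hx2in = toLocAlg 𝔪 U := Subtype.ext rfl
  have hx1m : locOf 𝔪 (algebraMap A E₀ ϖ) hx1in ∈ maximalIdeal ↥(locAlg 𝔪) := by
    rw [e1]; exact (algebraMap_mem_maximalIdeal_iff 𝔪 _).2 hϖ𝔪
  have hx2m : locOf 𝔪 (U : E₀) hx2in ∈ maximalIdeal ↥(locAlg 𝔪) := by
    rw [e2]; exact (algebraMap_mem_maximalIdeal_iff 𝔪 _).2 hU𝔪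
  have hdvd := locAlg_dvd_iff 𝔪 V hBV hthr hx1B hϖV hp
  have hmax := locAlg_hmax_of_reg 𝔪 hx1in hx2in hx1m hx2m hr
  have hgen : ∀ s : ↥(chartClosure A E₀ y), s ∈ 𝔪 →
      ∃ c₁ c₂ : E₀, InLoc A E₀ y 𝔪 c₁ ∧ InLoc A E₀ y 𝔪 c₂ ∧
        (s : E₀) = c₁ * algebraMap A E₀ ϖ + c₂ * (U : E₀) := by
    intro s hs
    obtain ⟨b, hb, c₁, c₂, h⟩ := hr s hs
    have hb0 : (b : E₀) ≠ 0 := coe_ne_zero_of_not_mem 𝔪 hb
    have hin : ∀ c : ↥(chartClosure A E₀ y), InLoc A E₀ y 𝔪 ((c : E₀) / b) := by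
      intro c
      refine ⟨b, hb, ?_⟩
      have : (b : E₀) * ((c : E₀) / b) = c := by field_simp
      rw [this]; exact c.2
    refine ⟨(c₁ : E₀) / b, (c₂ : E₀) / b, hin c₁, hin c₂, ?_⟩
    field_simp
    rw [mul_comm, h]; ring
  refine ⟨chart_x2_not_mem_nonunits hy hϖ 𝔪 h𝔪 V hCV hBV hthr hϖV hgen, ?_⟩
  intro b hb
  have hnd : ¬ locOf 𝔪 (algebraMap A E₀ ϖ) hx1in ∣ toLocAlg 𝔪 b :=
    fun h => hb ((hdvd _).1 h)
  obtain ⟨k, e, he, hdiv'⟩ := krull_factor_mod _ _ hmax (toLocAlg 𝔪 b) hnd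
  have h1 : (b : E₀) - (e : E₀) * (U : E₀) ^ k ∈ V.nonunits := (hdvd _).1 hdiv'
  obtain ⟨t, ht, hte⟩ := (mem_locAlg_iff 𝔪).1 e.2
  have hf : (⟨(t : E₀) * e, hte⟩ : ↥(chartClosure A E₀ y)) ∉ 𝔪 := by
    intro hfm
    have h2 : toLocAlg 𝔪 ⟨(t : E₀) * e, hte⟩ ∈ maximalIdeal ↥(locAlg 𝔪) :=
      (algebraMap_mem_maximalIdeal_iff 𝔪 _).2 hfm
    have h3 : toLocAlg 𝔪 ⟨(t : E₀) * e, hte⟩ = toLocAlg 𝔪 t * e := Subtype.ext rfl
    have h4 : IsUnit (toLocAlg 𝔪 t) := by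
      by_contra hn
      exact ht ((algebraMap_mem_maximalIdeal_iff 𝔪 t).1
        ((IsLocalRing.mem_maximalIdeal _).2 hn))
    rw [h3] at h2
    exact (IsLocalRing.mem_maximalIdeal _).1 h2 (h4.mul he)
  refine ⟨k, ⟨(t : E₀) * e, hte⟩, t, hf, ht, ?_⟩
  have e3 : (t : E₀) * b - ((t : E₀) * e) * (U : E₀) ^ k =
      ((b : E₀) - (e : E₀) * (U : E₀) ^ k) * (t : E₀) := by ring
  show (t : E₀) * b - ((t : E₀) * e) * (U : E₀) ^ k ∈ V.nonunits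
  rw [e3]
  exact vs_mem_nonunits_of_mul h1 (hBV t)

/-- **VAL on `B`** at a regular point `(ϖ, U)` of the branch `V` : the image of `B_𝔪` in the
residue field of `V` is a valuation ring. -/
theorem chartVal_abs
    (hinj : Function.Injective (algebraMap A E₀))
    (ϖ : A) (hϖ : Irreducible ϖ) (y : E₀) (hy : Transcendental A y)
    (hfd : ∃ n : ℕ, Nonempty (Module.Basis (Fin n) (chartField A E₀ y) E₀))
    (𝔪 : Ideal (chartClosure A E₀ y)) (h𝔪 : 𝔪.IsMaximal)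
    (V : ValuationSubring E₀)
    (hCV : ∀ z ∈ gaussClosure A E₀ ϖ y, z ∈ V)
    (hϖV : algebraMap A E₀ ϖ ∈ V.nonunits)
    (hthr : Through A E₀ y 𝔪 V)
    (hp : ∀ s : chartClosure A E₀ y, (s : E₀) ∈ V.nonunits →
      ∃ b : chartClosure A E₀ y, b ∉ 𝔪 ∧ ∃ c : chartClosure A E₀ y,
        (b : E₀) * s = algebraMap A E₀ ϖ * c)
    (U : chartClosure A E₀ y) (hU𝔪 : U ∈ 𝔪)
    (hr : ∀ s : chartClosure A E₀ y, s ∈ 𝔪 →
      ∃ b : chartClosure A E₀ y, b ∉ 𝔪 ∧ ∃ c₁ c₂ : chartClosure A E₀ y,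
        (b : E₀) * s = algebraMap A E₀ ϖ * c₁ + (U : E₀) * c₂)
    (a c : chartClosure A E₀ y) :
    (∃ t d : chartClosure A E₀ y, d ∉ 𝔪 ∧ (d : E₀) * a - (t : E₀) * c ∈ V.nonunits) ∨
    (∃ t d : chartClosure A E₀ y, d ∉ 𝔪 ∧ (d : E₀) * c - (t : E₀) * a ∈ V.nonunits) := by
  classical
  haveI h𝔪p : 𝔪.IsPrime := h𝔪.isPrime
  obtain ⟨hBC, -, -⟩ := Fermat.Agent.H89.gaussClosureStatement A E₀ hinj ϖ hϖ y hy
  have hBV : ∀ s : ↥(chartClosure A E₀ y), (s : E₀) ∈ V := fun s => hCV _ (hBC _ s.2)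
  have h1𝔪 : (1 : chartClosure A E₀ y) ∉ 𝔪 :=
    fun h => h𝔪p.ne_top ((Ideal.eq_top_iff_one _).2 h)
  obtain ⟨hUn, hfac⟩ := regFactor_abs A E₀ hinj ϖ hϖ y hy hfd 𝔪 h𝔪 V hCV hϖV hthr hp U hU𝔪 hr
  by_cases ha : (a : E₀) ∈ V.nonunits
  · left
    refine ⟨0, 1, h1𝔪, ?_⟩
    have e : ((1 : chartClosure A E₀ y) : E₀) * a - ((0 : chartClosure A E₀ y) : E₀) * c =
        (a : E₀) := by
      rw [OneMemClass.coe_one, ZeroMemClass.coe_zero, one_mul, zero_mul, sub_zero]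
    rw [e]
    exact ha
  by_cases hc : (c : E₀) ∈ V.nonunits
  · right
    refine ⟨0, 1, h1𝔪, ?_⟩
    have e : ((1 : chartClosure A E₀ y) : E₀) * c - ((0 : chartClosure A E₀ y) : E₀) * a =
        (c : E₀) := by
      rw [OneMemClass.coe_one, ZeroMemClass.coe_zero, one_mul, zero_mul, sub_zero]
    rw [e]
    exact hc
  obtain ⟨k₁, f₁, t₁, hf₁, ht₁, E₁⟩ := hfac a ha
  obtain ⟨k₂, f₂, t₂, hf₂, ht₂, E₂⟩ := hfac c hc
  rcases le_total k₂ k₁ with hk | hk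
  · obtain ⟨m, rfl⟩ := Nat.exists_eq_add_of_le hk
    left
    refine ⟨f₁ * t₂ * U ^ m, t₁ * f₂, ?_, ?_⟩
    · intro hmem
      rcases h𝔪p.mem_or_mem hmem with h' | h'
      · exact ht₁ h'
      · exact hf₂ h'
    · have key : ((t₁ * f₂ : ↥(chartClosure A E₀ y)) : E₀) * a -
          ((f₁ * t₂ * U ^ m : ↥(chartClosure A E₀ y)) : E₀) * c =
          (f₂ : E₀) * ((t₁ : E₀) * a - (f₁ : E₀) * (U : E₀) ^ (k₂ + m)) -
            (f₁ : E₀) * (U : E₀) ^ m * ((t₂ : E₀) * c - (f₂ : E₀) * (U : E₀) ^ k₂) := by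
        push_cast
        ring
      rw [key]
      refine vs_nonunits_sub ?_ ?_
      · rw [mul_comm]
        exact vs_mem_nonunits_of_mul E₁ (hBV f₂)
      · rw [mul_comm]
        exact vs_mem_nonunits_of_mul E₂ (V.mul_mem _ _ (hBV f₁) (V.pow_mem (hBV U) m))
  · obtain ⟨m, rfl⟩ := Nat.exists_eq_add_of_le hk
    right
    refine ⟨f₂ * t₁ * U ^ m, t₂ * f₁, ?_, ?_⟩
    · intro hmem
      rcases h𝔪p.mem_or_mem hmem with h' | h'
      · exact ht₂ h'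
      · exact hf₁ h'
    · have key : ((t₂ * f₁ : ↥(chartClosure A E₀ y)) : E₀) * c -
          ((f₂ * t₁ * U ^ m : ↥(chartClosure A E₀ y)) : E₀) * a =
          (f₁ : E₀) * ((t₂ : E₀) * c - (f₂ : E₀) * (U : E₀) ^ (k₁ + m)) -
            (f₂ : E₀) * (U : E₀) ^ m * ((t₁ : E₀) * a - (f₁ : E₀) * (U : E₀) ^ k₁) := by
        push_cast
        ring
      rw [key]
      refine vs_nonunits_sub ?_ ?_
      · rw [mul_comm]
        exact vs_mem_nonunits_of_mul E₂ (hBV f₁)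
      · rw [mul_comm]
        exact vs_mem_nonunits_of_mul E₁ (V.mul_mem _ _ (hBV f₂) (V.pow_mem (hBV U) m))

end Abs

section Model

open Fermat.Agent.H66 Fermat.Agent.H55.SS Fermat.Agent.H82.SS Fermat.Agent.H7.SS
open Fermat.Agent.H7.SS2 Fermat.Agent.H41.SS Fermat.Agent.H67.SS

variable (M q : ℕ) [NeZero M] [NeZero q]
  (K₁ : Type) [Field K₁] [Algebra ℚ K₁] [FiniteDimensional ℚ K₁]
  (A₀ : Type) [CommRing A₀] [IsDomain A₀] [IsDiscreteValuationRing A₀]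
  [Algebra A₀ K₁] [IsFractionRing A₀ K₁]
  [Algebra A₀ (ModelField K₁ (M * q))] [IsScalarTower A₀ K₁ (ModelField K₁ (M * q))]

/-- **VAL on the chart `1/j` at the cusps of `C_∞`.** -/
theorem cuspVal (hq : q.Prime) (hqM : ¬ q ∣ M)
    (hqA : ¬ IsUnit ((q : ℕ) : A₀)) (hζ : ∃ ζ : K₁, IsPrimitiveRoot ζ M)
    (ϖ : A₀) (hϖ : Irreducible ϖ)
    (x : ModelField K₁ (M * q)) (hx : (x : LaurentSeries K₁) = coeffEmb K₁ jq)
    (W : ModelField K₁ (M * q) ≃ₐ[K₁] ModelField K₁ (M * q)) (hW : IsAtkinLehnerModel K₁ M q W)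
    (𝔪 : Ideal (chartClosure A₀ (ModelField K₁ (M * q)) x⁻¹)) (h𝔪 : 𝔪.IsMaximal)
    (hϖ𝔪 : algebraMap A₀ (chartClosure A₀ (ModelField K₁ (M * q)) x⁻¹) ϖ ∈ 𝔪)
    (hx𝔪 : ∀ s : chartClosure A₀ (ModelField K₁ (M * q)) x⁻¹,
      (s : ModelField K₁ (M * q)) = x⁻¹ → s ∈ 𝔪)
    (hT : ∀ s : chartClosure A₀ (ModelField K₁ (M * q)) x⁻¹,
      (s : ModelField K₁ (M * q)) ∈ (vInf K₁ A₀ (M * q)).nonunits → s ∈ 𝔪)
    (a c : chartClosure A₀ (ModelField K₁ (M * q)) x⁻¹) :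
    (∃ t d : chartClosure A₀ (ModelField K₁ (M * q)) x⁻¹, d ∉ 𝔪 ∧
      (d : ModelField K₁ (M * q)) * a - (t : ModelField K₁ (M * q)) * c ∈
        (vInf K₁ A₀ (M * q)).nonunits) ∨
    (∃ t d : chartClosure A₀ (ModelField K₁ (M * q)) x⁻¹, d ∉ 𝔪 ∧
      (d : ModelField K₁ (M * q)) * c - (t : ModelField K₁ (M * q)) * a ∈
        (vInf K₁ A₀ (M * q)).nonunits) := by
  classical
  haveI : CharZero K₁ := algebraRat.charZero K₁
  haveI : CharZero (ModelField K₁ (M * q)) :=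
    charZero_of_injective_algebraMap (algebraMap K₁ (ModelField K₁ (M * q))).injective
  haveI : NeZero (M * q) := ⟨Nat.mul_ne_zero (NeZero.ne M) (NeZero.ne q)⟩
  haveI h𝔪p := h𝔪.isPrime
  have hinj : Function.Injective (algebraMap A₀ (ModelField K₁ (M * q))) := by
    rw [IsScalarTower.algebraMap_eq A₀ K₁ (ModelField K₁ (M * q))]
    exact (algebraMap K₁ (ModelField K₁ (M * q))).injective.comp (IsFractionRing.injective A₀ K₁)
  have hxtr : Transcendental A₀ x :=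
    Fermat.Agent.H58.modelTranscendental_jq (M * q) K₁ A₀ x hx
  have hytr : Transcendental A₀ x⁻¹ := Fermat.Agent.H89.klg_transcendental_inv hxtr
  have hfd : ∃ n : ℕ, Nonempty (Module.Basis (Fin n)
      (chartField A₀ (ModelField K₁ (M * q)) x⁻¹) (ModelField K₁ (M * q))) := by
    rw [Fermat.Agent.H89.klg_chartField_inv]
    exact Fermat.Agent.H57.SS.modelFinite (M * q) K₁ A₀ x hx
  obtain ⟨-, -, hCinv⟩ := Fermat.Agent.H89.gaussClosureStatement A₀ (ModelField K₁ (M * q))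
    hinj ϖ hϖ x hxtr
  have hvert := isVertical_vInf M q K₁ A₀ hqA ϖ hϖ x hx W hW
  have hCV : ∀ z ∈ gaussClosure A₀ (ModelField K₁ (M * q)) ϖ x⁻¹, z ∈ vInf K₁ A₀ (M * q) := by
    intro z hz
    rw [hCinv] at hz
    exact hvert.2.2.1 z hz
  have hϖV : algebraMap A₀ (ModelField K₁ (M * q)) ϖ ∈ (vInf K₁ A₀ (M * q)).nonunits :=
    hvert.2.2.2
  -- the cusp is not on `C_0`, and `𝔪 B_𝔪 = (ϖ, U)`
  obtain ⟨hnot, U, hU𝔪, hgen⟩ :=
    Fermat.Agent.H7.SS2.cuspGenR M q hq hqM K₁ A₀ hqA hζ ϖ hϖ x hx W hW 𝔪 h𝔪 hϖ𝔪 hx𝔪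
  obtain ⟨b₀, hb₀V, hb₀𝔪⟩ : ∃ b₀ : chartClosure A₀ (ModelField K₁ (M * q)) x⁻¹,
      (b₀ : ModelField K₁ (M * q)) ∈ (vZero K₁ A₀ (M * q) W).nonunits ∧ b₀ ∉ 𝔪 := by
    by_contra hcon
    push Not at hcon
    exact hnot ⟨hT, hcon⟩
  have hp : ∀ s : chartClosure A₀ (ModelField K₁ (M * q)) x⁻¹,
      (s : ModelField K₁ (M * q)) ∈ (vInf K₁ A₀ (M * q)).nonunits →
      ∃ b : chartClosure A₀ (ModelField K₁ (M * q)) x⁻¹, b ∉ 𝔪 ∧
        ∃ c : chartClosure A₀ (ModelField K₁ (M * q)) x⁻¹,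
          (b : ModelField K₁ (M * q)) * s = algebraMap A₀ (ModelField K₁ (M * q)) ϖ * c := by
    intro s hs
    obtain ⟨r, hr, hsr⟩ := Fermat.Agent.H66.ORD.ker_model M q K₁ A₀ hq hqM hqA ϖ hϖ x hx W hW
      x⁻¹ (Or.inr rfl) (s : ModelField K₁ (M * q)) (b₀ : ModelField K₁ (M * q)) s.2 b₀.2
      hs hb₀V
    exact ⟨b₀, hb₀𝔪, ⟨r, hr⟩, (mul_comm _ _).trans hsr⟩
  have hr : ∀ s : chartClosure A₀ (ModelField K₁ (M * q)) x⁻¹, s ∈ 𝔪 →
      ∃ b : chartClosure A₀ (ModelField K₁ (M * q)) x⁻¹, b ∉ 𝔪 ∧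
        ∃ c₁ c₂ : chartClosure A₀ (ModelField K₁ (M * q)) x⁻¹,
          (b : ModelField K₁ (M * q)) * s =
            algebraMap A₀ (ModelField K₁ (M * q)) ϖ * c₁ + (U : ModelField K₁ (M * q)) * c₂ := by
    intro s hs
    obtain ⟨t, ht, b₁, b₂, h⟩ := hgen s hs
    exact ⟨t, ht, b₁, b₂, congrArg (fun z : ↥(chartClosure A₀ (ModelField K₁ (M * q)) x⁻¹) =>
      (z : ModelField K₁ (M * q))) h⟩
  exact chartVal_abs A₀ (ModelField K₁ (M * q)) hinj ϖ hϖ x⁻¹ hytr hfd 𝔪 h𝔪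
    (vInf K₁ A₀ (M * q)) hCV hϖV hT hp U hU𝔪 hr a c

end Model

/-- **THE CUSP CORE of [DVR]** : the chart `1/j`, maximal ideals containing `1/j`, component
`∞`; every prime `q ∤ M`, fields containing `μ_R`, `M ∣ R`. -/
theorem modelValGen_cusp (M q : ℕ) [NeZero M] [NeZero q] (hq : q.Prime) (hqM : ¬ q ∣ M)
    (R : ℕ) (hR : 0 < R) (hMR : M ∣ R) :
    Fermat.Agent.H41.ORD.ModelValGenStatement M q R jq⁻¹ True := by
  intro K₁ _ _ _ A₀ _ _ _ _ _ _ _ hqA hζR ϖ hϖ y hy W hW 𝔪 h𝔪 hϖ𝔪 hT hy𝔪 z hz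
  classical
  haveI : NeZero (M * q) := ⟨Nat.mul_ne_zero (NeZero.ne M) (NeZero.ne q)⟩
  have hζ : ∃ ζ : K₁, IsPrimitiveRoot ζ M :=
    Fermat.Agent.H67.SS.exists_primitiveRoot_of_dvd hR hMR hζR
  obtain ⟨x, rfl⟩ : ∃ x : ModelField K₁ (M * q), y = x⁻¹ := ⟨y⁻¹, (inv_inv y).symm⟩
  have hx : (x : LaurentSeries K₁) = coeffEmb K₁ jq := by
    have h1 : ((x⁻¹ : ModelField K₁ (M * q)) : LaurentSeries K₁) =
        (x : LaurentSeries K₁)⁻¹ := rfl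
    rw [h1, map_inv₀] at hy
    exact inv_injective hy
  set V := Fermat.Agent.H7.SS2.vInf K₁ A₀ (M * q) with hV
  have hinj : Function.Injective (algebraMap A₀ (ModelField K₁ (M * q))) := by
    rw [IsScalarTower.algebraMap_eq A₀ K₁ (ModelField K₁ (M * q))]
    exact (algebraMap K₁ (ModelField K₁ (M * q))).injective.comp (IsFractionRing.injective A₀ K₁)
  have hxtr : Transcendental A₀ x :=
    Fermat.Agent.H58.modelTranscendental_jq (M * q) K₁ A₀ x hx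
  have hytr : Transcendental A₀ x⁻¹ := Fermat.Agent.H89.klg_transcendental_inv hxtr
  have hx0 : x ≠ 0 := by
    rintro rfl
    exact hxtr isAlgebraic_zero
  obtain ⟨-, -, hCinv⟩ := Fermat.Agent.H89.gaussClosureStatement A₀ (ModelField K₁ (M * q))
    hinj ϖ hϖ x hxtr
  have hvert := Fermat.Agent.H7.SS2.isVertical_vInf M q K₁ A₀ hqA ϖ hϖ x hx W hW
  have hBVx : ∀ s ∈ chartClosure A₀ (ModelField K₁ (M * q)) x, s ∈ V := fun s hs =>
    hvert.2.2.1 _ (Fermat.Agent.H89.klg_chartClosure_le_gaussClosure hϖ hxtr hs)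
  have hBV : ∀ s ∈ chartClosure A₀ (ModelField K₁ (M * q)) x⁻¹, s ∈ V := by
    intro s hs
    have h1 := Fermat.Agent.H89.klg_chartClosure_le_gaussClosure hϖ hytr hs
    rw [hCinv] at h1
    exact hvert.2.2.1 _ h1
  -- `1/j` is a unit of `V_∞`
  have hyV : x⁻¹ ∈ V := hBV _ (Fermat.Agent.H41.ORD.vc_self_mem x⁻¹)
  have hxV : x ∈ V := hBVx _ (Fermat.Agent.H41.ORD.vc_self_mem x)
  have hyn : x⁻¹ ∉ V.nonunits :=
    vs_not_nonunits_of_inv_mem (inv_ne_zero hx0) (by rw [inv_inv]; exact hxV)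
  -- FRAC in the chart `j`
  obtain ⟨b₁, b₂, hb₁, hb₂, hb₂m, hzm⟩ :=
    Fermat.Agent.H66.SS.modelFrac M q hq hqM K₁ A₀ hqA ϖ hϖ x hx z
      (Fermat.Agent.H7.SS.InV.exists_quot _ ((Fermat.Agent.H7.SS2.mem_vInf_iff _).1 hz))
  have hb₂u : ModularCurve.heckeAlphaBar K₁ M q b₂ ∉ V.nonunits := by
    intro h
    exact hb₂m (Fermat.Agent.H66.SS.fv_inM_exists_quot _
      ((Fermat.Agent.H7.SS2.mem_nonunits_vInf_iff _).1 h) hϖ)
  have hzm' : z * ModularCurve.heckeAlphaBar K₁ M q b₂ -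
      ModularCurve.heckeAlphaBar K₁ M q b₁ ∈ V.nonunits :=
    (Fermat.Agent.H7.SS2.mem_nonunits_vInf_iff _).2
      (Fermat.Agent.H66.SS.fv_inM_of_quot _ hϖ.not_isUnit hzm)
  -- move to the chart `1/j`
  obtain ⟨k₁, hk₁⟩ := Fermat.Agent.H85.klc_overlap (A := A₀) hx0 _ hb₁
  obtain ⟨k₂, hk₂⟩ := Fermat.Agent.H85.klc_overlap (A := A₀) hx0 _ hb₂
  have hyB : x⁻¹ ∈ chartClosure A₀ (ModelField K₁ (M * q)) x⁻¹ :=
    Fermat.Agent.H41.ORD.vc_self_mem x⁻¹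
  have ha : x⁻¹ ^ (k₁ + k₂) * ModularCurve.heckeAlphaBar K₁ M q b₁ ∈
      chartClosure A₀ (ModelField K₁ (M * q)) x⁻¹ := by
    have e : x⁻¹ ^ (k₁ + k₂) * ModularCurve.heckeAlphaBar K₁ M q b₁ =
        x⁻¹ ^ k₂ * (x⁻¹ ^ k₁ * ModularCurve.heckeAlphaBar K₁ M q b₁) := by
      rw [pow_add]; ring
    rw [e]
    exact Subalgebra.mul_mem _ (Subalgebra.pow_mem _ hyB k₂) hk₁
  have hc : x⁻¹ ^ (k₁ + k₂) * ModularCurve.heckeAlphaBar K₁ M q b₂ ∈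
      chartClosure A₀ (ModelField K₁ (M * q)) x⁻¹ := by
    have e : x⁻¹ ^ (k₁ + k₂) * ModularCurve.heckeAlphaBar K₁ M q b₂ =
        x⁻¹ ^ k₁ * (x⁻¹ ^ k₂ * ModularCurve.heckeAlphaBar K₁ M q b₂) := by
      rw [pow_add]; ring
    rw [e]
    exact Subalgebra.mul_mem _ (Subalgebra.pow_mem _ hyB k₁) hk₂
  have hpowV : x⁻¹ ^ (k₁ + k₂) ∈ V := V.pow_mem hyV _
  have hpown : x⁻¹ ^ (k₁ + k₂) ∉ V.nonunits := by
    refine vs_not_nonunits_of_inv_mem (pow_ne_zero _ (inv_ne_zero hx0)) ?_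
    rw [← inv_pow, inv_inv]
    exact V.pow_mem hxV _
  have hcV : x⁻¹ ^ (k₁ + k₂) * ModularCurve.heckeAlphaBar K₁ M q b₂ ∈ V := hBV _ hc
  have hcn : x⁻¹ ^ (k₁ + k₂) * ModularCurve.heckeAlphaBar K₁ M q b₂ ∉ V.nonunits := by
    intro h
    rcases vs_nonunits_of_mul_mem hpowV (hBVx _ hb₂) h with h' | h'
    · exact hpown h'
    · exact hb₂u h'
  have hzc : z * (x⁻¹ ^ (k₁ + k₂) * ModularCurve.heckeAlphaBar K₁ M q b₂) -
      x⁻¹ ^ (k₁ + k₂) * ModularCurve.heckeAlphaBar K₁ M q b₁ ∈ V.nonunits := by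
    have e : z * (x⁻¹ ^ (k₁ + k₂) * ModularCurve.heckeAlphaBar K₁ M q b₂) -
        x⁻¹ ^ (k₁ + k₂) * ModularCurve.heckeAlphaBar K₁ M q b₁ =
        (z * ModularCurve.heckeAlphaBar K₁ M q b₂ -
          ModularCurve.heckeAlphaBar K₁ M q b₁) * x⁻¹ ^ (k₁ + k₂) := by ring
    rw [e]
    exact vs_mem_nonunits_of_mul hzm' hpowV
  -- VAL at the cusp
  have hVAL := cuspVal M q K₁ A₀ hq hqM hqA hζ ϖ hϖ x hx W hW 𝔪 h𝔪 hϖ𝔪
    (fun s hs => by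
      have e : s = ⟨x⁻¹, Fermat.Agent.H41.ORD.vc_self_mem x⁻¹⟩ := Subtype.ext hs
      rw [e]
      exact hy𝔪 trivial)
    (fun s hs => hT s hs) ⟨_, ha⟩ ⟨_, hc⟩
  rcases hVAL with ⟨t, d, hd, h⟩ | ⟨t, d, hd, h⟩
  · refine ⟨t, d, hd, Or.inl ?_⟩
    apply Fermat.Agent.H67.SS.nu_cancel V hcV hcn
    have e : x⁻¹ ^ (k₁ + k₂) * ModularCurve.heckeAlphaBar K₁ M q b₂ *
        ((d : ModelField K₁ (M * q)) * z - (t : ModelField K₁ (M * q))) =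
        (d : ModelField K₁ (M * q)) *
          (z * (x⁻¹ ^ (k₁ + k₂) * ModularCurve.heckeAlphaBar K₁ M q b₂) -
            x⁻¹ ^ (k₁ + k₂) * ModularCurve.heckeAlphaBar K₁ M q b₁) +
        ((d : ModelField K₁ (M * q)) *
            (x⁻¹ ^ (k₁ + k₂) * ModularCurve.heckeAlphaBar K₁ M q b₁) -
          (t : ModelField K₁ (M * q)) *
            (x⁻¹ ^ (k₁ + k₂) * ModularCurve.heckeAlphaBar K₁ M q b₂)) := by ring
    rw [e]
    exact vs_nonunits_add (Fermat.Agent.H67.SS.nu_mul_left V (hBV _ d.2) hzc) h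
  · refine ⟨t, d, hd, Or.inr ?_⟩
    apply Fermat.Agent.H67.SS.nu_cancel V hcV hcn
    have e : x⁻¹ ^ (k₁ + k₂) * ModularCurve.heckeAlphaBar K₁ M q b₂ *
        ((d : ModelField K₁ (M * q)) - (t : ModelField K₁ (M * q)) * z) =
        ((d : ModelField K₁ (M * q)) *
            (x⁻¹ ^ (k₁ + k₂) * ModularCurve.heckeAlphaBar K₁ M q b₂) -
          (t : ModelField K₁ (M * q)) *
            (x⁻¹ ^ (k₁ + k₂) * ModularCurve.heckeAlphaBar K₁ M q b₁)) -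
        (t : ModelField K₁ (M * q)) *
          (z * (x⁻¹ ^ (k₁ + k₂) * ModularCurve.heckeAlphaBar K₁ M q b₂) -
            x⁻¹ ^ (k₁ + k₂) * ModularCurve.heckeAlphaBar K₁ M q b₁) := by ring
    rw [e]
    exact vs_nonunits_sub h (Fermat.Agent.H67.SS.nu_mul_left V (hBV _ t.2) hzc)

/-- **The cusp core at the auxiliary root number** `R = ktAuxRoot M q`. -/
theorem modelValGen_cusp_aux (M q : ℕ) [NeZero M] [NeZero q] (hq : q.Prime) (hqM : ¬ q ∣ M) :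
    Fermat.Agent.H41.ORD.ModelValGenStatement M q (Fermat.Agent.H71.SS.ktAuxRoot M q) jq⁻¹
      True :=
  modelValGen_cusp M q hq hqM _ (Fermat.Agent.H71.SS.ktAuxRoot_pos M q) (by
    unfold Fermat.Agent.H71.SS.ktAuxRoot
    split_ifs
    · exact Dvd.intro_left 3 rfl
    · exact Dvd.intro_left 2 rfl)

end Fermat.Agent.H7.ORD

end
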