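import Fermat.Agent.H7.ORD.SpecDefs
import Fermat.Agent.H94.FF.Val

/-!
# P-ORD, block B1-SPEC (helper7): integral functions have integral values

`specRing A P` : the subring of `F` of the functions with a value in `A` at the place `P`
(the composite valuation ring of `P` and `A`).  It is integrally closed in `F`
(`specRing_isIntegral`), hence every function integral over `A[y]`, `y(P) ∈ A`, has a value
in `A` at `P` (`specVal_of_isIntegral_baseRing`).  Also: if `y(P) ∉ A` then `y⁻¹` vanishes at
the centre of `P` (`specVal_inv_zero`).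
-/

set_option autoImplicit false
set_option linter.unusedSectionVars false
set_option linter.style.haveILetI false

noncomputable section

open AlgebraicCurve Polynomial

namespace Fermat.Agent.H7.ORD

open Fermat.Agent.H94.FF

variable {L F : Type} [Field L] [Field F] [Algebra L F] (A : ValuationSubring L)

theorem specVal_iff_hasVal {P : Place L F} {f : F} {κ : IsLocalRing.ResidueField A} :
    SpecVal A P f κ ↔ ∃ c : A, HasVal P f (c : L) ∧ IsLocalRing.residue A c = κ := Iff.rfl

/-- the functions with a value in `A` at `P` -/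
def specRing (P : Place L F) : Subring F where
  carrier := {f | ∃ c : A, HasVal P f (c : L)}
  mul_mem' := by
    rintro f g ⟨c, hc⟩ ⟨d, hd⟩
    exact ⟨c * d, hc.mul hd⟩
  one_mem' := ⟨1, hasVal_one P⟩
  add_mem' := by
    rintro f g ⟨c, hc⟩ ⟨d, hd⟩
    exact ⟨c + d, hc.add hd⟩
  zero_mem' := ⟨0, hasVal_zero P⟩
  neg_mem' := by
    rintro f ⟨c, hc⟩
    exact ⟨-c, hc.neg⟩

variable {A}

theorem mem_specRing_iff {P : Place L F} {f : F} :
    f ∈ specRing A P ↔ ∃ c : A, HasVal P f (c : L) := Iff.rfl

theorem mem_specRing_iff_specVal {P : Place L F} {f : F} :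
    f ∈ specRing A P ↔ ∃ κ, SpecVal A P f κ := by
  constructor
  · rintro ⟨c, hc⟩
    exact ⟨_, c, hc, rfl⟩
  · rintro ⟨κ, c, hc, _⟩
    exact ⟨c, hc⟩

theorem algebraMap_mem_specRing (P : Place L F) {c : L} (hc : c ∈ A) :
    algebraMap L F c ∈ specRing A P :=
  ⟨⟨c, hc⟩, hasVal_const P c⟩

theorem specRing_le (P : Place L F) : specRing A P ≤ P.toValuationSubring.toSubring := by
  rintro f ⟨c, hc⟩
  exact Fermat.Agent.H23.mem_of_ord_nonneg P hc.ord_nonneg

/-- the value map of `specRing A P` -/
def specEval (P : Place L F) (f : specRing A P) : A := f.2.choose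

theorem specEval_spec (P : Place L F) (f : specRing A P) :
    HasVal P (f : F) ((specEval P f : A) : L) := f.2.choose_spec

theorem specEval_eq (P : Place L F) (f : specRing A P) {c : L} (hc : HasVal P (f : F) c) :
    ((specEval P f : A) : L) = c := (specEval_spec P f).unique hc

/-- **`specRing A P` is integrally closed in `F`.** -/
theorem specRing_isIntegral {P : Place L F} (hdeg : P.deg = 1) {f : F}
    (hf : IsIntegral (specRing A P) f) : f ∈ specRing A P := by
  classical
  obtain ⟨p, hmonic, hp⟩ := hf
  -- `f` is integral over the valuation ring of `P`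
  have hfO : f ∈ P.toValuationSubring := by
    have hint : IsIntegral P.toValuationSubring f := by
      refine ⟨p.map (Subring.inclusion (specRing_le P)), hmonic.map _, ?_⟩
      rw [Polynomial.eval₂_map]
      exact hp
    obtain ⟨y, hy⟩ := IsIntegrallyClosed.isIntegral_iff.mp hint
    rw [← hy]
    exact y.2
  obtain ⟨c, hc⟩ := exists_hasVal hdeg (Fermat.Agent.H23.ord_nonneg_of_mem P hfO)
  -- the value of `p(f)` is `p̄(c)`
  have hval : HasVal P (Polynomial.eval₂ (algebraMap (specRing A P) F) f p)
      (∑ i ∈ Finset.range (p.natDegree + 1), ((specEval P (p.coeff i) : A) : L) * c ^ i) := by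
    rw [Polynomial.eval₂_eq_sum_range]
    refine hasVal_sum (Finset.range (p.natDegree + 1)) _ _ (fun i _ => ?_)
    exact (specEval_spec P (p.coeff i)).mul (hc.pow i)
  rw [hp] at hval
  have hzero : (∑ i ∈ Finset.range (p.natDegree + 1),
      ((specEval P (p.coeff i) : A) : L) * c ^ i) = 0 := hval.unique (hasVal_zero P)
  -- `c` is integral over `A`
  have hlead : ((specEval P (p.coeff p.natDegree) : A) : L) = 1 := by
    apply specEval_eq
    have : p.coeff p.natDegree = 1 := hmonic
    rw [this]
    exact hasVal_one P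
  have hcint : IsIntegral A c := by
    let q : A[X] := ∑ i ∈ Finset.range (p.natDegree + 1),
      Polynomial.C (specEval P (p.coeff i)) * Polynomial.X ^ i
    have hq : q = Polynomial.X ^ p.natDegree + ∑ i ∈ Finset.range p.natDegree,
        Polynomial.C (specEval P (p.coeff i)) * Polynomial.X ^ i := by
      show (∑ i ∈ Finset.range (p.natDegree + 1),
        Polynomial.C (specEval P (p.coeff i)) * Polynomial.X ^ i) = _
      rw [Finset.sum_range_succ, add_comm]
      congr 1
      have : specEval P (p.coeff p.natDegree) = 1 := Subtype.ext hlead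
      rw [this, Polynomial.C_1, one_mul]
    have hdeglt : (∑ i ∈ Finset.range p.natDegree,
        Polynomial.C (specEval P (p.coeff i)) * Polynomial.X ^ i : A[X]).degree <
        (p.natDegree : WithBot ℕ) := by
      refine lt_of_le_of_lt (Polynomial.degree_sum_le _ _) ?_
      rw [Finset.sup_lt_iff (WithBot.bot_lt_coe _)]
      intro i hi
      refine lt_of_le_of_lt (Polynomial.degree_C_mul_X_pow_le i _) ?_
      exact_mod_cast Finset.mem_range.mp hi
    refine ⟨q, ?_, ?_⟩
    · rw [hq]
      exact Polynomial.monic_X_pow_add hdeglt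
    · show Polynomial.eval₂ (algebraMap A L) c q = 0
      rw [Polynomial.eval₂_finsetSum]
      rw [← hzero]
      refine Finset.sum_congr rfl (fun i _ => ?_)
      rw [Polynomial.eval₂_mul, Polynomial.eval₂_C, Polynomial.eval₂_pow, Polynomial.eval₂_X]
      rfl
  obtain ⟨y, hy⟩ := IsIntegrallyClosed.isIntegral_iff.mp hcint
  refine ⟨y, ?_⟩
  have : ((y : A) : L) = c := hy
  rw [this]
  exact hc

/-- integrality over a subring of `specRing A P` -/
theorem mem_specRing_of_isIntegral {P : Place L F} (hdeg : P.deg = 1) {R : Subring F}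
    (hR : R ≤ specRing A P) {f : F} (hf : IsIntegral R f) : f ∈ specRing A P := by
  obtain ⟨p, hmonic, hp⟩ := hf
  apply specRing_isIntegral hdeg
  refine ⟨p.map (Subring.inclusion hR), hmonic.map _, ?_⟩
  rw [Polynomial.eval₂_map]
  exact hp

variable (A)

/-- the subring of `F` generated by the constants in `A` and by `y` -/
def baseRing (y : F) : Subring F :=
  Subring.closure ((algebraMap L F) '' (A : Set L) ∪ {y})

variable {A}

theorem algebraMap_mem_baseRing (y : F) {c : L} (hc : c ∈ A) :
    algebraMap L F c ∈ baseRing A y :=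
  Subring.subset_closure (Or.inl ⟨c, hc, rfl⟩)

theorem self_mem_baseRing (y : F) : y ∈ baseRing A y :=
  Subring.subset_closure (Or.inr rfl)

theorem baseRing_le_specRing {P : Place L F} {y : F} (hy : y ∈ specRing A P) :
    baseRing A y ≤ specRing A P := by
  unfold baseRing
  rw [Subring.closure_le]
  rintro f (⟨c, hc, rfl⟩ | hf)
  · exact algebraMap_mem_specRing P hc
  · rw [Set.mem_singleton_iff] at hf
    rw [hf]
    exact hy

/-- **Integral functions have integral values**: a function integral over `A[y]`, `y(P) ∈ A`,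
has a value in `A` at `P`. -/
theorem specVal_of_isIntegral_baseRing {P : Place L F} (hdeg : P.deg = 1) {y : F}
    (hy : ∃ κ, SpecVal A P y κ) {f : F} (hf : IsIntegral (baseRing A y) f) :
    ∃ κ, SpecVal A P f κ :=
  mem_specRing_iff_specVal.mp
    (mem_specRing_of_isIntegral hdeg
      (baseRing_le_specRing (mem_specRing_iff_specVal.mpr hy)) hf)

/-- If `y(P) ∉ A` then `y⁻¹` vanishes at the centre of `P`. -/
theorem specVal_inv_zero {P : Place L F} (hdeg : P.deg = 1) {y : F}
    (hy : ¬ ∃ κ, SpecVal A P y κ) : SpecVal A P y⁻¹ 0 := by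
  have hy0 : y ≠ 0 := by
    rintro rfl
    exact hy ⟨0, 0, hasVal_zero P, map_zero _⟩
  by_cases hord : 0 ≤ P.ord y
  · obtain ⟨c, hc⟩ := exists_hasVal hdeg hord
    have hcA : c ∉ A := fun h => hy ⟨_, ⟨c, h⟩, hc, rfl⟩
    have hc0 : c ≠ 0 := fun h => hcA (h ▸ A.zero_mem)
    have hci : c⁻¹ ∈ A := (A.mem_or_inv_mem c).resolve_left hcA
    refine ⟨⟨c⁻¹, hci⟩, hc.inv hc0, ?_⟩
    rw [IsLocalRing.residue_eq_zero_iff, IsLocalRing.mem_maximalIdeal, mem_nonunits_iff]
    intro hu
    obtain ⟨d, hd⟩ := hu.exists_right_inv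
    have h1 : c⁻¹ * (d : L) = 1 := congrArg Subtype.val hd
    have h2 : (d : L) = c := by
      field_simp at h1
      exact h1
    exact hcA (h2 ▸ d.2)
  · rw [not_le] at hord
    refine ⟨0, Or.inr ?_, map_zero _⟩
    have : P.ord y⁻¹ = -P.ord y := P.ord_inv y
    show 1 ≤ P.ord (y⁻¹ - algebraMap L F ((0 : A) : L))
    rw [ZeroMemClass.coe_zero, map_zero, sub_zero, this]
    omega

end Fermat.Agent.H7.ORD
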