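import Fermat.Agent.H7.ORD.SpecDefs

/-!
# P-ORD, block B1-SPEC (helper7): the formal properties of the specialisation map

For a specialisation datum `D` (see `SpecDefs`) satisfying the basic hypotheses `SpecBasic D`
(the test functions are integral at both components and have values at the places of their
chart) we prove the four formal fields `nOo_inj`, `n0_inj`, `r_oo`, `r_zero` of
`Fermat.Agent.H18.ORD.NodalRvHyp`, and the characterisations of the three cases of `D.r P`.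
-/

set_option autoImplicit false
set_option linter.unusedSectionVars false
set_option linter.style.haveILetI false

noncomputable section

open AlgebraicCurve

namespace Fermat.Agent.H7.ORD

open Fermat.Agent.H18.ORD

section PlaceAux

variable {k E : Type} [Field k] [Field E] [Algebra k E]

theorem place_const_nonunit (Q : Place k E) {κ : k}
    (h : algebraMap k E κ ∈ Q.toValuationSubring.nonunits) : κ = 0 := by
  by_contra hκ
  have h1 : Q.toValuationSubring.valuation (algebraMap k E κ) < 1 :=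
    (ValuationSubring.mem_nonunits_iff _).mp h
  have h2 : Q.toValuationSubring.valuation (algebraMap k E κ⁻¹) ≤ 1 :=
    (ValuationSubring.valuation_le_one_iff _ _).mpr (Q.algebraMap_mem' κ⁻¹)
  have h3 : Q.toValuationSubring.valuation (algebraMap k E κ) *
      Q.toValuationSubring.valuation (algebraMap k E κ⁻¹) = 1 := by
    rw [← map_mul, ← map_mul, mul_inv_cancel₀ hκ, map_one, map_one]
  have h4 : Q.toValuationSubring.valuation (algebraMap k E κ) *
      Q.toValuationSubring.valuation (algebraMap k E κ⁻¹) < 1 := by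
    calc _ ≤ Q.toValuationSubring.valuation (algebraMap k E κ) * 1 :=
          mul_le_mul_right h2 _
      _ = Q.toValuationSubring.valuation (algebraMap k E κ) := mul_one _
      _ < 1 := h1
  rw [h3] at h4
  exact lt_irrefl _ h4

theorem place_nonunits_sub (Q : Place k E) {a b : E}
    (ha : a ∈ Q.toValuationSubring.nonunits) (hb : b ∈ Q.toValuationSubring.nonunits) :
    a - b ∈ Q.toValuationSubring.nonunits := by
  rw [ValuationSubring.mem_nonunits_iff] at ha hb ⊢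
  exact lt_of_le_of_lt (Valuation.map_sub _ _ _) (max_lt ha hb)

theorem place_mem_of_nonunit (Q : Place k E) {a : E}
    (ha : a ∈ Q.toValuationSubring.nonunits) : a ∈ Q.toValuationSubring := by
  rw [ValuationSubring.mem_nonunits_iff] at ha
  exact (ValuationSubring.valuation_le_one_iff _ _).mp ha.le

theorem place_mem_of_sub_const (Q : Place k E) {a : E} {κ : k}
    (h : a - algebraMap k E κ ∈ Q.toValuationSubring.nonunits) : a ∈ Q.toValuationSubring := by
  have := Q.toValuationSubring.add_mem _ _ (place_mem_of_nonunit Q h) (Q.algebraMap_mem' κ)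
  rwa [sub_add_cancel] at this

/-- two residue values of the same function at a place coincide -/
theorem place_value_unique (Q : Place k E) {a : E} {κ κ' : k}
    (h : a - algebraMap k E κ ∈ Q.toValuationSubring.nonunits)
    (h' : a - algebraMap k E κ' ∈ Q.toValuationSubring.nonunits) : κ = κ' := by
  have h1 := place_nonunits_sub Q h' h
  have e : a - algebraMap k E κ' - (a - algebraMap k E κ) = algebraMap k E (κ - κ') := by
    rw [map_sub]; ring
  rw [e] at h1
  exact sub_eq_zero.mp (place_const_nonunit Q h1)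

end PlaceAux

section Generic

variable {L : Type} [Field L] {A : ValuationSubring L} {F : Type} [Field F] [Algebra L F]
variable {Foo F0 : Type} [Field Foo] [Field F0]
  [Algebra (IsLocalRing.ResidueField A) Foo] [Algebra (IsLocalRing.ResidueField A) F0]

/-- **The basic hypotheses on a specialisation datum.** -/
structure SpecBasic (D : SpecData A F Foo F0) : Prop where
  /-- the test functions of the chart `y` are integral at `V_∞` -/
  t₁_oo : ∀ b ∈ D.T₁, b ∈ D.Voo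
  /-- the test functions of the chart `y` are integral at `V_0` -/
  t₁_zero : ∀ b ∈ D.T₁, b ∈ D.V0
  /-- the test functions of the chart `y⁻¹` are integral at `V_∞` -/
  t₂_oo : ∀ b ∈ D.T₂, b ∈ D.Voo
  /-- the test functions of the chart `y⁻¹` are integral at `V_0` -/
  t₂_zero : ∀ b ∈ D.T₂, b ∈ D.V0
  /-- the coordinate is a test function -/
  y_mem : D.y ∈ D.T₁
  /-- the inverse of the coordinate is a test function of the second chart -/
  yinv_mem : D.y⁻¹ ∈ D.T₂
  /-- the test functions have values at the places of the chart `y` -/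
  val₁ : ∀ P : Place L F, D.IsFin P → ∀ b ∈ D.T₁, ∃ κ, SpecVal A P b κ
  /-- the test functions have values at the places of the chart `y⁻¹` -/
  val₂ : ∀ P : Place L F, ¬ D.IsFin P → ∀ b ∈ D.T₂, ∃ κ, SpecVal A P b κ
  /-- `y⁻¹` vanishes at the centre of a place outside the chart `y` -/
  not_fin : ∀ P : Place L F, ¬ D.IsFin P → SpecVal A P D.y⁻¹ 0
  /-- the default place is a pole of the coordinate -/
  default_pole : ∀ h : D.y ∈ D.Voo, D.redOo ⟨D.y, h⟩ ∉ D.Q₀.toValuationSubring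

namespace SpecData

variable (D : SpecData A F Foo F0)

theorem specVal_zero_zero (P : Place L F) : SpecVal A P (0 : F) 0 :=
  ⟨0, Or.inl (by simp), map_zero _⟩

/-- a place with a branch on `C_∞` in the chart `y`, at which `red_∞ y` is regular, lies in
the chart `y` -/
theorem isFin_of_matchOo (hD : SpecBasic D) {P : Place L F}
    {Q : Place (IsLocalRing.ResidueField A) Foo} (hQ : D.MatchOo P Q)
    (hy : D.redOo ⟨D.y, hD.t₁_oo _ hD.y_mem⟩ ∈ Q.toValuationSubring) : D.IsFin P := by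
  by_contra hfin
  have hT : D.T P = D.T₂ := D.T_of_not_isFin hfin
  have hyi : D.y⁻¹ ∈ D.T P := by rw [hT]; exact hD.yinv_mem
  have h1 := hQ _ hyi (hD.t₂_oo _ hD.yinv_mem) 0 (hD.not_fin P hfin)
  rw [map_zero, sub_zero] at h1
  have hy0 : D.y ≠ 0 := by
    intro h0
    apply hfin
    exact ⟨0, by rw [h0]; exact specVal_zero_zero P⟩
  have hmul : D.redOo ⟨D.y, hD.t₁_oo _ hD.y_mem⟩ *
      D.redOo ⟨D.y⁻¹, hD.t₂_oo _ hD.yinv_mem⟩ = 1 := by
    rw [← map_mul]
    have : (⟨D.y, hD.t₁_oo _ hD.y_mem⟩ : D.Voo) * ⟨D.y⁻¹, hD.t₂_oo _ hD.yinv_mem⟩ = 1 :=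
      Subtype.ext (mul_inv_cancel₀ hy0)
    rw [this, map_one]
  rw [ValuationSubring.mem_nonunits_iff] at h1
  have h2 := (ValuationSubring.valuation_le_one_iff _ _).mpr hy
  have h3 : Q.toValuationSubring.valuation (D.redOo ⟨D.y, hD.t₁_oo _ hD.y_mem⟩ *
      D.redOo ⟨D.y⁻¹, hD.t₂_oo _ hD.yinv_mem⟩) < 1 := by
    rw [map_mul]
    calc _ ≤ 1 * Q.toValuationSubring.valuation (D.redOo ⟨D.y⁻¹, hD.t₂_oo _ hD.yinv_mem⟩) :=
          mul_le_mul_left h2 _
      _ = _ := one_mul _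
      _ < 1 := h1
  rw [hmul, map_one] at h3
  exact lt_irrefl _ h3

/-- the same for `C_0` -/
theorem isFin_of_match0 (hD : SpecBasic D) {P : Place L F}
    {Q : Place (IsLocalRing.ResidueField A) F0} (hQ : D.Match0 P Q)
    (hy : D.red0 ⟨D.y, hD.t₁_zero _ hD.y_mem⟩ ∈ Q.toValuationSubring) : D.IsFin P := by
  by_contra hfin
  have hT : D.T P = D.T₂ := D.T_of_not_isFin hfin
  have hyi : D.y⁻¹ ∈ D.T P := by rw [hT]; exact hD.yinv_mem
  have h1 := hQ _ hyi (hD.t₂_zero _ hD.yinv_mem) 0 (hD.not_fin P hfin)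
  rw [map_zero, sub_zero] at h1
  have hy0 : D.y ≠ 0 := by
    intro h0
    apply hfin
    exact ⟨0, by rw [h0]; exact specVal_zero_zero P⟩
  have hmul : D.red0 ⟨D.y, hD.t₁_zero _ hD.y_mem⟩ *
      D.red0 ⟨D.y⁻¹, hD.t₂_zero _ hD.yinv_mem⟩ = 1 := by
    rw [← map_mul]
    have : (⟨D.y, hD.t₁_zero _ hD.y_mem⟩ : D.V0) * ⟨D.y⁻¹, hD.t₂_zero _ hD.yinv_mem⟩ = 1 :=
      Subtype.ext (mul_inv_cancel₀ hy0)
    rw [this, map_one]
  rw [ValuationSubring.mem_nonunits_iff] at h1
  have h2 := (ValuationSubring.valuation_le_one_iff _ _).mpr hy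
  have h3 : Q.toValuationSubring.valuation (D.red0 ⟨D.y, hD.t₁_zero _ hD.y_mem⟩ *
      D.red0 ⟨D.y⁻¹, hD.t₂_zero _ hD.yinv_mem⟩) < 1 := by
    rw [map_mul]
    calc _ ≤ 1 * Q.toValuationSubring.valuation (D.red0 ⟨D.y⁻¹, hD.t₂_zero _ hD.yinv_mem⟩) :=
          mul_le_mul_left h2 _
      _ = _ := one_mul _
      _ < 1 := h1
  rw [hmul, map_one] at h3
  exact lt_irrefl _ h3

/-- `red_∞ y` is regular at the branch of a node on `C_∞` -/
theorem y_mem_nOo (hD : SpecBasic D) (ν : D.NodeT) :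
    D.redOo ⟨D.y, hD.t₁_oo _ hD.y_mem⟩ ∈ (D.nOo ν).toValuationSubring :=
  place_mem_of_sub_const _ (D.nOo_spec ν ⟨D.y, hD.y_mem⟩ (hD.t₁_oo _ hD.y_mem))

/-- `red_0 y` is regular at the branch of a node on `C_0` -/
theorem y_mem_n0 (hD : SpecBasic D) (ν : D.NodeT) :
    D.red0 ⟨D.y, hD.t₁_zero _ hD.y_mem⟩ ∈ (D.n0 ν).toValuationSubring :=
  place_mem_of_sub_const _ (D.n0_spec ν ⟨D.y, hD.y_mem⟩ (hD.t₁_zero _ hD.y_mem))

/-- **`nOo_inj`**: distinct nodes have distinct branches on `C_∞`. -/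
theorem nOo_injective (hD : SpecBasic D) : Function.Injective D.nOo := by
  intro ν ν' h
  apply Subtype.ext
  funext b
  have h1 := D.nOo_spec ν b (hD.t₁_oo _ b.2)
  have h2 := D.nOo_spec ν' b (hD.t₁_oo _ b.2)
  rw [h] at h1
  exact place_value_unique _ h1 h2

/-- **`n0_inj`**: distinct nodes have distinct branches on `C_0`. -/
theorem n0_injective (hD : SpecBasic D) : Function.Injective D.n0 := by
  intro ν ν' h
  apply Subtype.ext
  funext b
  have h1 := D.n0_spec ν b (hD.t₁_zero _ b.2)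
  have h2 := D.n0_spec ν' b (hD.t₁_zero _ b.2)
  rw [h] at h1
  exact place_value_unique _ h1 h2

/-- a place with the same branch on `C_∞` as a node lies on `C_0` -/
theorem on0_of_matchOo_nOo (hD : SpecBasic D) {P : Place L F} (ν : D.NodeT)
    (hQ : D.MatchOo P (D.nOo ν)) : D.On0 P := by
  have hfin : D.IsFin P := D.isFin_of_matchOo hD hQ (D.y_mem_nOo hD ν)
  have hT : D.T P = D.T₁ := D.T_of_isFin hfin
  intro b hb h hred
  rw [hT] at hb
  obtain ⟨κ, hκ⟩ := hD.val₁ P hfin b hb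
  -- the value of `b` at the node is `0`
  have hν := D.nodePlace_isNodeAt ν
  have hb' : b ∈ D.T (D.nodePlace ν) := by rw [D.T_of_isFin hν.1]; exact hb
  have h0 : SpecVal A (D.nodePlace ν) b 0 := hν.2.2.2.1 b hb' h hred
  have hx : ν.1 ⟨b, hb⟩ = 0 := (D.nodePlace_specVal ν ⟨b, hb⟩).unique h0
  have h1 := D.nOo_spec ν ⟨b, hb⟩ (hD.t₁_oo _ hb)
  rw [hx] at h1
  have hb'' : b ∈ D.T P := by rw [hT]; exact hb
  have h2 := hQ b hb'' (hD.t₁_oo _ hb) κ hκ
  have : κ = 0 := place_value_unique _ h2 h1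
  rw [this] at hκ
  exact hκ

/-- a place with the same branch on `C_0` as a node lies on `C_∞` -/
theorem onOo_of_match0_n0 (hD : SpecBasic D) {P : Place L F} (ν : D.NodeT)
    (hQ : D.Match0 P (D.n0 ν)) : D.OnOo P := by
  have hfin : D.IsFin P := D.isFin_of_match0 hD hQ (D.y_mem_n0 hD ν)
  have hT : D.T P = D.T₁ := D.T_of_isFin hfin
  intro b hb h hred
  rw [hT] at hb
  obtain ⟨κ, hκ⟩ := hD.val₁ P hfin b hb
  have hν := D.nodePlace_isNodeAt ν
  have hb' : b ∈ D.T (D.nodePlace ν) := by rw [D.T_of_isFin hν.1]; exact hb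
  have h0 : SpecVal A (D.nodePlace ν) b 0 := hν.2.2.1 b hb' h hred
  have hx : ν.1 ⟨b, hb⟩ = 0 := (D.nodePlace_specVal ν ⟨b, hb⟩).unique h0
  have h1 := D.n0_spec ν ⟨b, hb⟩ (hD.t₁_zero _ hb)
  rw [hx] at h1
  have hb'' : b ∈ D.T P := by rw [hT]; exact hb
  have h2 := hQ b hb'' (hD.t₁_zero _ hb) κ hκ
  have : κ = 0 := place_value_unique _ h2 h1
  rw [this] at hκ
  exact hκ

/-! ### The three cases of `D.r P` -/

theorem r_of_isNodeAt {P : Place L F} (h : D.IsNodeAt P) : D.r P = NPt.node (D.nodeOf P h) := by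
  unfold r; rw [dif_pos h]

theorem r_of_oo {P : Place L F} (h : ¬ D.IsNodeAt P)
    (h₁ : D.OnOo P ∧ ¬ D.On0 P ∧ ∃ Q, D.MatchOo P Q) : D.r P = NPt.oo h₁.2.2.choose := by
  unfold r; rw [dif_neg h, dif_pos h₁]

theorem r_of_zero {P : Place L F} (h : ¬ D.IsNodeAt P)
    (h₁ : ¬ (D.OnOo P ∧ ¬ D.On0 P ∧ ∃ Q, D.MatchOo P Q))
    (h₂ : D.On0 P ∧ ¬ D.OnOo P ∧ ∃ Q, D.Match0 P Q) : D.r P = NPt.zero h₂.2.2.choose := by
  unfold r; rw [dif_neg h, dif_neg h₁, dif_pos h₂]

theorem r_of_default {P : Place L F} (h : ¬ D.IsNodeAt P)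
    (h₁ : ¬ (D.OnOo P ∧ ¬ D.On0 P ∧ ∃ Q, D.MatchOo P Q))
    (h₂ : ¬ (D.On0 P ∧ ¬ D.OnOo P ∧ ∃ Q, D.Match0 P Q)) : D.r P = NPt.oo D.Q₀ := by
  unfold r; rw [dif_neg h, dif_neg h₁, dif_neg h₂]

/-- **The centre of `P` is well defined**: a node, or a point on exactly one component with a
branch there. -/
def Total (P : Place L F) : Prop :=
  D.IsNodeAt P ∨ (D.OnOo P ∧ ¬ D.On0 P ∧ ∃ Q, D.MatchOo P Q) ∨
    (D.On0 P ∧ ¬ D.OnOo P ∧ ∃ Q, D.Match0 P Q)

/-- characterisation of the places specialising to a node -/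
theorem r_eq_node_iff {P : Place L F} {ν : D.NodeT} :
    D.r P = NPt.node ν ↔ D.IsNodeAt P ∧ ∀ b : D.T₁, SpecVal A P (b : F) (ν.1 b) := by
  constructor
  · intro h
    by_cases hn : D.IsNodeAt P
    · rw [D.r_of_isNodeAt hn] at h
      have e : D.nodeOf P hn = ν := NPt.node.inj h
      refine ⟨hn, fun b => ?_⟩
      rw [← e]
      exact specVal_kval (hn.2.1 b b.2)
    · exfalso
      by_cases h₁ : D.OnOo P ∧ ¬ D.On0 P ∧ ∃ Q, D.MatchOo P Q
      · rw [D.r_of_oo hn h₁] at h; cases h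
      · by_cases h₂ : D.On0 P ∧ ¬ D.OnOo P ∧ ∃ Q, D.Match0 P Q
        · rw [D.r_of_zero hn h₁ h₂] at h; cases h
        · rw [D.r_of_default hn h₁ h₂] at h; cases h
  · rintro ⟨hn, hb⟩
    rw [D.r_of_isNodeAt hn]
    congr 1
    apply Subtype.ext
    funext b
    exact kval_eq (hb b)

/-- a place specialising to a smooth point of `C_∞` -/
theorem r_eq_oo_imp {P : Place L F} {Q : Place (IsLocalRing.ResidueField A) Foo}
    (htot : D.Total P) (h : D.r P = NPt.oo Q) :
    ¬ D.IsNodeAt P ∧ D.OnOo P ∧ ¬ D.On0 P ∧ D.MatchOo P Q := by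
  by_cases hn : D.IsNodeAt P
  · rw [D.r_of_isNodeAt hn] at h; cases h
  · by_cases h₁ : D.OnOo P ∧ ¬ D.On0 P ∧ ∃ Q, D.MatchOo P Q
    · rw [D.r_of_oo hn h₁] at h
      have e : h₁.2.2.choose = Q := NPt.oo.inj h
      refine ⟨hn, h₁.1, h₁.2.1, ?_⟩
      rw [← e]
      exact h₁.2.2.choose_spec
    · by_cases h₂ : D.On0 P ∧ ¬ D.OnOo P ∧ ∃ Q, D.Match0 P Q
      · rw [D.r_of_zero hn h₁ h₂] at h; cases h
      · rcases htot with h | h | h
        · exact absurd h hn
        · exact absurd h h₁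
        · exact absurd h h₂

/-- a place specialising to a smooth point of `C_0` -/
theorem r_eq_zero_imp {P : Place L F} {Q : Place (IsLocalRing.ResidueField A) F0}
    (h : D.r P = NPt.zero Q) :
    ¬ D.IsNodeAt P ∧ D.On0 P ∧ ¬ D.OnOo P ∧ D.Match0 P Q := by
  by_cases hn : D.IsNodeAt P
  · rw [D.r_of_isNodeAt hn] at h; cases h
  · by_cases h₁ : D.OnOo P ∧ ¬ D.On0 P ∧ ∃ Q, D.MatchOo P Q
    · rw [D.r_of_oo hn h₁] at h; cases h
    · by_cases h₂ : D.On0 P ∧ ¬ D.OnOo P ∧ ∃ Q, D.Match0 P Q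
      · rw [D.r_of_zero hn h₁ h₂] at h
        have e : h₂.2.2.choose = Q := NPt.zero.inj h
        refine ⟨hn, h₂.1, h₂.2.1, ?_⟩
        rw [← e]
        exact h₂.2.2.choose_spec
      · rw [D.r_of_default hn h₁ h₂] at h; cases h

/-- a point on `C_∞` only, with a branch, specialises to a smooth point of `C_∞` -/
theorem exists_r_eq_oo {P : Place L F} (h : D.OnOo P) (h0 : ¬ D.On0 P)
    (hQ : ∃ Q, D.MatchOo P Q) : ∃ Q, D.r P = NPt.oo Q ∧ D.MatchOo P Q := by
  have hn : ¬ D.IsNodeAt P := fun hn => h0 hn.2.2.2.1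
  exact ⟨_, D.r_of_oo hn ⟨h, h0, hQ⟩, (⟨h, h0, hQ⟩ : D.OnOo P ∧ ¬ D.On0 P ∧ _).2.2.choose_spec⟩

/-- a point on `C_0` only, with a branch, specialises to a smooth point of `C_0` -/
theorem exists_r_eq_zero {P : Place L F} (h : D.On0 P) (h0 : ¬ D.OnOo P)
    (hQ : ∃ Q, D.Match0 P Q) : ∃ Q, D.r P = NPt.zero Q ∧ D.Match0 P Q := by
  have hn : ¬ D.IsNodeAt P := fun hn => h0 hn.2.2.1
  have h₁ : ¬ (D.OnOo P ∧ ¬ D.On0 P ∧ ∃ Q, D.MatchOo P Q) := fun h₁ => h0 h₁.1
  exact ⟨_, D.r_of_zero hn h₁ ⟨h, h0, hQ⟩,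
    (⟨h, h0, hQ⟩ : D.On0 P ∧ ¬ D.OnOo P ∧ _).2.2.choose_spec⟩

/-- **`r_oo`**: `NPt.oo Q` is only used for smooth points. -/
theorem r_oo (hD : SpecBasic D) (P : Place L F) (Q : Place (IsLocalRing.ResidueField A) Foo)
    (h : D.r P = NPt.oo Q) : Q ∉ Set.range D.nOo := by
  rintro ⟨ν, rfl⟩
  by_cases hn : D.IsNodeAt P
  · rw [D.r_of_isNodeAt hn] at h; cases h
  · by_cases h₁ : D.OnOo P ∧ ¬ D.On0 P ∧ ∃ Q, D.MatchOo P Q
    · rw [D.r_of_oo hn h₁] at h
      have e : h₁.2.2.choose = D.nOo ν := NPt.oo.inj h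
      have hm : D.MatchOo P (D.nOo ν) := by rw [← e]; exact h₁.2.2.choose_spec
      exact h₁.2.1 (D.on0_of_matchOo_nOo hD ν hm)
    · by_cases h₂ : D.On0 P ∧ ¬ D.OnOo P ∧ ∃ Q, D.Match0 P Q
      · rw [D.r_of_zero hn h₁ h₂] at h; cases h
      · rw [D.r_of_default hn h₁ h₂] at h
        have e : D.Q₀ = D.nOo ν := NPt.oo.inj h
        apply hD.default_pole (hD.t₁_oo _ hD.y_mem)
        rw [e]
        exact D.y_mem_nOo hD ν

/-- **`r_zero`**: `NPt.zero Q` is only used for smooth points. -/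
theorem r_zero (hD : SpecBasic D) (P : Place L F) (Q : Place (IsLocalRing.ResidueField A) F0)
    (h : D.r P = NPt.zero Q) : Q ∉ Set.range D.n0 := by
  rintro ⟨ν, rfl⟩
  obtain ⟨_, _, hnot, hm⟩ := D.r_eq_zero_imp h
  exact hnot (D.onOo_of_match0_n0 hD ν hm)

end SpecData

end Generic

end Fermat.Agent.H7.ORD
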