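import Fermat.Agent.H7.ORD.SpecModel
import Fermat.Agent.H7.ORD.SpecLemmas
import Fermat.Agent.H7.ORD.SpecInt

/-!
# P-ORD, block B1-SPEC (helper7): (S1) the basic hypotheses for the model of `X₀(N)`

`specBasic_model` : `SpecBasic (modelSpec N A Voo V0 redOo red0 Q₀)` as soon as the two rings
`Voo`, `V0` are integrally closed in `F = ℚ̄(X₀(N))` and contain `A`, `j`, `j⁻¹`, the places of
`F` have degree one and the default place `Q₀` is a pole of `red_∞ j`.

Consequently (`modelNodal_nOo_inj`, `modelNodal_n0_inj`, `modelNodal_r_oo`, `modelNodal_r_zero`)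
the four formal fields of `NodalRvHyp` hold for `modelNodal`.
-/

set_option autoImplicit false
set_option synthInstance.maxHeartbeats 400000
set_option maxHeartbeats 1000000
set_option linter.unusedSectionVars false
set_option linter.style.haveILetI false

noncomputable section

open AlgebraicCurve ModularCurve

namespace Fermat.Agent.H7.ORD

open Fermat.Agent.H18.ORD Fermat.Agent.H72.FF Fermat.Agent.H22.KL Fermat.Agent.H93.KL

section Transport

variable {K₁ : Type} [Field K₁] [Algebra ℚ K₁] (N : ℕ) [NeZero N] (A : ValuationSubring Qb)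
  (ι : K₁ →+* Qb)

theorem spec_klBc_algebraMap (c : K₁) :
    klBc ι (modularFunctionFieldFull N) (algebraMap K₁ (ModelField K₁ N) c) =
      algebraMap Qb (FLb N) (ι c) := by
  apply Subtype.ext
  show coeffMap ι (algebraMap K₁ (LaurentSeries K₁) c) = algebraMap Qb (LaurentSeries Qb) (ι c)
  rw [algebraMap_laurentSeries_eq_single, algebraMap_laurentSeries_eq_single, coeffMap_single]

theorem spec_klBc_j (x : ModelField K₁ N) (hx : (x : LaurentSeries K₁) = coeffEmb K₁ jq) :
    klBc ι (modularFunctionFieldFull N) x = Fermat.Agent.H23.jBar N := by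
  apply Subtype.ext
  show coeffMap ι (x : LaurentSeries K₁) = coeffEmb Qb jq
  rw [hx, coeffEmb, coeffMap_coeffMap]
  exact coeffMap_congr (RingHom.ext fun c => by simp) jq

/-- the image of the chart ring `A₀[x]` lies in `A[klBc x]` -/
theorem spec_klBc_chartRing (x : ModelField K₁ N) (a : ModelField K₁ N)
    (ha : letI := specAlg N (A.comap ι); a ∈ chartRing ↥(A.comap ι) (ModelField K₁ N) x) :
    klBc ι (modularFunctionFieldFull N) a ∈
      baseRing A (klBc ι (modularFunctionFieldFull N) x) := by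
  letI := specAlg N (A.comap ι)
  unfold chartRing at ha
  induction ha using Algebra.adjoin_induction with
  | mem y hy =>
    rw [Set.mem_singleton_iff] at hy
    rw [hy]
    exact self_mem_baseRing _
  | algebraMap c =>
    have e : algebraMap ↥(A.comap ι) (ModelField K₁ N) c =
        algebraMap K₁ (ModelField K₁ N) (c : K₁) := rfl
    rw [e, spec_klBc_algebraMap]
    exact algebraMap_mem_baseRing _ c.2
  | add y z _ _ hy hz =>
    rw [map_add]
    exact Subring.add_mem _ hy hz
  | mul y z _ _ hy hz =>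
    rw [map_mul]
    exact Subring.mul_mem _ hy hz

/-- the image of an element of the chart ring `B(x)` is integral over `A[klBc x]` -/
theorem spec_isIntegral_of_isChartFn (x : ModelField K₁ N) {f : FLb N}
    (hf : IsChartFn N A ι x f) :
    IsIntegral (baseRing A (klBc ι (modularFunctionFieldFull N) x)) f := by
  letI := specAlg N (A.comap ι)
  obtain ⟨b, hb, rfl⟩ := hf
  have hb' : IsIntegral (chartRing ↥(A.comap ι) (ModelField K₁ N) x) b := hb
  let φ : ↥(chartRing ↥(A.comap ι) (ModelField K₁ N) x) →+*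
      ↥(baseRing A (klBc ι (modularFunctionFieldFull N) x)) :=
    ((klBc ι (modularFunctionFieldFull N)).comp
      (algebraMap ↥(chartRing ↥(A.comap ι) (ModelField K₁ N) x) (ModelField K₁ N))).codRestrict
      (baseRing A (klBc ι (modularFunctionFieldFull N) x))
      (fun a => spec_klBc_chartRing N A ι x a a.2)
  exact IsIntegral.map_of_comp_eq φ (klBc ι (modularFunctionFieldFull N))
    (RingHom.ext fun a => rfl) hb'

end Transport

section Basic

variable (N : ℕ) [NeZero N] (A : ValuationSubring Qb) {Foo F0 : Type} [Field Foo] [Field F0]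
  [Algebra (kRes A) Foo] [Algebra (kRes A) F0]

/-- the test functions of the chart `j` are integral over `A[j]` -/
theorem isIntegral_of_mem_modelT₁ {f : FLb N} (hf : f ∈ modelT₁ N A) :
    IsIntegral (baseRing A (Fermat.Agent.H23.jBar N)) f := by
  obtain ⟨K₁, _, _, _, ι, _, x, hx, hfx⟩ := hf
  have h := spec_isIntegral_of_isChartFn N A ι x hfx
  rwa [spec_klBc_j N ι x hx] at h

/-- the test functions of the chart `j⁻¹` are integral over `A[j⁻¹]` -/
theorem isIntegral_of_mem_modelT₂ {f : FLb N} (hf : f ∈ modelT₂ N A) :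
    IsIntegral (baseRing A (Fermat.Agent.H23.jBar N)⁻¹) f := by
  obtain ⟨K₁, _, _, _, ι, _, x, hx, hfx⟩ := hf
  have h := spec_isIntegral_of_isChartFn N A ι x⁻¹ hfx
  rwa [map_inv₀, spec_klBc_j N ι x hx] at h

/-- `ℚ → ℚ̄` is unramified -/
theorem specUnr_rat : SpecUnr A (algebraMap ℚ Qb) := by
  intro σ _ c
  exact σ.commutes c

/-- the elements of a chart ring are test functions -/
theorem self_isChartFn {K₁ : Type} [Field K₁] [Algebra ℚ K₁] (ι : K₁ →+* Qb)
    (x : ModelField K₁ N) : IsChartFn N A ι x (klBc ι (modularFunctionFieldFull N) x) := by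
  letI := specAlg N (A.comap ι)
  refine ⟨x, ?_, rfl⟩
  show x ∈ integralClosure (chartRing ↥(A.comap ι) (ModelField K₁ N) x) (ModelField K₁ N)
  have hx : x ∈ chartRing ↥(A.comap ι) (ModelField K₁ N) x :=
    Algebra.subset_adjoin (Set.mem_singleton x)
  exact (isIntegral_algebraMap :
    IsIntegral (chartRing ↥(A.comap ι) (ModelField K₁ N) x)
      (algebraMap (chartRing ↥(A.comap ι) (ModelField K₁ N) x) (ModelField K₁ N) ⟨x, hx⟩))

/-- the model coordinate over `ℚ` -/
def specJQ : ModelField ℚ N :=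
  ⟨coeffEmb ℚ jq, coeffEmb_mem_laurentBaseChange ℚ (by
    have h := ModularCurve.jqd_mem_full N (one_dvd N)
    rwa [ModularCurve.qExpand_one_apply] at h)⟩

theorem jBar_mem_modelT₁ : Fermat.Agent.H23.jBar N ∈ modelT₁ N A := by
  refine ⟨ℚ, inferInstance, inferInstance, inferInstance, algebraMap ℚ Qb, specUnr_rat A,
    specJQ N, rfl, ?_⟩
  have h := self_isChartFn N A (algebraMap ℚ Qb) (specJQ N)
  rwa [spec_klBc_j N (algebraMap ℚ Qb) (specJQ N) rfl] at h

theorem jBar_inv_mem_modelT₂ : (Fermat.Agent.H23.jBar N)⁻¹ ∈ modelT₂ N A := by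
  refine ⟨ℚ, inferInstance, inferInstance, inferInstance, algebraMap ℚ Qb, specUnr_rat A,
    specJQ N, rfl, ?_⟩
  have h := self_isChartFn N A (algebraMap ℚ Qb) (specJQ N)⁻¹
  rwa [map_inv₀, spec_klBc_j N (algebraMap ℚ Qb) (specJQ N) rfl] at h

/-- a subring which is integrally closed in `F` and contains `A` and `y` contains everything
integral over `A[y]` -/
theorem mem_of_isIntegral_baseRing {V : Subring (FLb N)}
    (hVint : ∀ f : FLb N, IsIntegral V f → f ∈ V)
    (hVA : ∀ c : Qb, c ∈ A → algebraMap Qb (FLb N) c ∈ V) {y : FLb N} (hy : y ∈ V)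
    {f : FLb N} (hf : IsIntegral (baseRing A y) f) : f ∈ V := by
  have hle : baseRing A y ≤ V := by
    unfold baseRing
    rw [Subring.closure_le]
    rintro g (⟨c, hc, rfl⟩ | hg)
    · exact hVA c hc
    · rw [Set.mem_singleton_iff] at hg
      rw [hg]; exact hy
  obtain ⟨p, hmonic, hp⟩ := hf
  apply hVint
  refine ⟨p.map (Subring.inclusion hle), hmonic.map _, ?_⟩
  rw [Polynomial.eval₂_map]
  exact hp

/-- **(S1)** The basic hypotheses hold for the specialisation datum of the model. -/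
theorem specBasic_model (Voo V0 : Subring (FLb N)) (redOo : Voo →+* Foo) (red0 : V0 →+* F0)
    (Q₀ : Place (kRes A) Foo)
    (hdeg : ∀ P : Place Qb (FLb N), P.deg = 1)
    (hOoInt : ∀ f : FLb N, IsIntegral Voo f → f ∈ Voo)
    (hOoA : ∀ c : Qb, c ∈ A → algebraMap Qb (FLb N) c ∈ Voo)
    (hOoj : Fermat.Agent.H23.jBar N ∈ Voo) (hOoj' : (Fermat.Agent.H23.jBar N)⁻¹ ∈ Voo)
    (h0Int : ∀ f : FLb N, IsIntegral V0 f → f ∈ V0)
    (h0A : ∀ c : Qb, c ∈ A → algebraMap Qb (FLb N) c ∈ V0)
    (h0j : Fermat.Agent.H23.jBar N ∈ V0) (h0j' : (Fermat.Agent.H23.jBar N)⁻¹ ∈ V0)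
    (hQ₀ : ∀ h : Fermat.Agent.H23.jBar N ∈ Voo,
      redOo ⟨Fermat.Agent.H23.jBar N, h⟩ ∉ Q₀.toValuationSubring) :
    SpecBasic (modelSpec N A Voo V0 redOo red0 Q₀) where
  t₁_oo _ hb := mem_of_isIntegral_baseRing N A hOoInt hOoA hOoj (isIntegral_of_mem_modelT₁ N A hb)
  t₁_zero _ hb :=
    mem_of_isIntegral_baseRing N A h0Int h0A h0j (isIntegral_of_mem_modelT₁ N A hb)
  t₂_oo _ hb :=
    mem_of_isIntegral_baseRing N A hOoInt hOoA hOoj' (isIntegral_of_mem_modelT₂ N A hb)
  t₂_zero _ hb :=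
    mem_of_isIntegral_baseRing N A h0Int h0A h0j' (isIntegral_of_mem_modelT₂ N A hb)
  y_mem := jBar_mem_modelT₁ N A
  yinv_mem := jBar_inv_mem_modelT₂ N A
  val₁ P hP _ hb := specVal_of_isIntegral_baseRing (hdeg P) hP (isIntegral_of_mem_modelT₁ N A hb)
  val₂ P hP _ hb :=
    specVal_of_isIntegral_baseRing (hdeg P) ⟨0, specVal_inv_zero (hdeg P) hP⟩
      (isIntegral_of_mem_modelT₂ N A hb)
  not_fin P hP := specVal_inv_zero (hdeg P) hP
  default_pole := hQ₀

/-! ### The four formal fields of `NodalRvHyp` for `modelNodal` -/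

variable {N A}
variable {Voo V0 : Subring (FLb N)} {redOo : Voo →+* Foo} {red0 : V0 →+* F0}
  {Q₀ : Place (kRes A) Foo}

theorem modelNodal_nOo_inj (hD : SpecBasic (modelSpec N A Voo V0 redOo red0 Q₀)) :
    Function.Injective (modelNodal N A Voo V0 redOo red0 Q₀).nOo :=
  (modelSpec N A Voo V0 redOo red0 Q₀).nOo_injective hD

theorem modelNodal_n0_inj (hD : SpecBasic (modelSpec N A Voo V0 redOo red0 Q₀)) :
    Function.Injective (modelNodal N A Voo V0 redOo red0 Q₀).n0 :=
  (modelSpec N A Voo V0 redOo red0 Q₀).n0_injective hD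

theorem modelNodal_r_oo (hD : SpecBasic (modelSpec N A Voo V0 redOo red0 Q₀)) :
    ∀ P Q, (modelNodal N A Voo V0 redOo red0 Q₀).r P = NPt.oo Q →
      Q ∉ Set.range (modelNodal N A Voo V0 redOo red0 Q₀).nOo :=
  (modelSpec N A Voo V0 redOo red0 Q₀).r_oo hD

theorem modelNodal_r_zero (hD : SpecBasic (modelSpec N A Voo V0 redOo red0 Q₀)) :
    ∀ P Q, (modelNodal N A Voo V0 redOo red0 Q₀).r P = NPt.zero Q →
      Q ∉ Set.range (modelNodal N A Voo V0 redOo red0 Q₀).n0 :=
  (modelSpec N A Voo V0 redOo red0 Q₀).r_zero hD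

end Basic

end Fermat.Agent.H7.ORD
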