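import Fermat.Agent.H18.ORD.NodalDefs
import Fermat.Agent.H23.PlaceBasic

/-!
# P-ORD, block B1-SPEC (helper7): the specialisation map of a two-component model (generic part)

Setting: `F / L` a function field, `A` a valuation subring of `L` with residue field `k`,
two subrings `V_∞`, `V_0` of `F` with reductions `red_∞ : V_∞ → F_∞`, `red_0 : V_0 → F_0`,
a chart coordinate `y` and two sets of test functions `T₁` (chart `y`), `T₂` (chart `y⁻¹`).

For a place `P` of `F / L`:

* `SpecVal A P f κ` : the value of `f` at `P` lies in `A` and has residue class `κ`;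
* `D.IsFin P`       : `y(P) ∈ A` (the chart of `P` is `y`); `D.T P` the test functions of `P`;
* `D.OnOo P`        : every test function which vanishes on `C_∞` vanishes at the centre of `P`;
* `D.On0 P`         : the same for `C_0`;
* `D.MatchOo P Q`   : the place `Q` of `F_∞` lies over the centre of `P`:
  `red_∞ b - κ ∈ 𝔪_Q` for every test function `b` with value `κ` at the centre of `P`;
* `D.NodeT`         : the nodes = the `k`-points `x : T₁ → k` of the chart `y` which are centres
  of places on both components (with branches on both components);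
* `D.r`             : the specialisation map `Place L F → NPt (Place k F_∞) (Place k F_0) NodeT`.

The four formal fields `nOo_inj`, `n0_inj`, `r_oo`, `r_zero` of
`Fermat.Agent.H18.ORD.NodalRvHyp` are proved here (under the hypotheses `SpecBasic`).
-/

set_option autoImplicit false
set_option linter.unusedSectionVars false
set_option linter.style.haveILetI false

noncomputable section

open AlgebraicCurve

namespace Fermat.Agent.H7.ORD

open Fermat.Agent.H18.ORD

section Value

variable {L F : Type} [Field L] [Field F] [Algebra L F] (A : ValuationSubring L)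

/-- "`f(P) ∈ A` and `f(P) mod 𝔪_A = κ`": `f - c` vanishes at `P` (or is zero) for some `c ∈ A`
with residue class `κ`. -/
def SpecVal (P : Place L F) (f : F) (κ : IsLocalRing.ResidueField A) : Prop :=
  ∃ c : A, (f = algebraMap L F (c : L) ∨ 1 ≤ P.ord (f - algebraMap L F (c : L))) ∧
    IsLocalRing.residue A c = κ

variable {A}

/-- the value of a function at a place is unique -/
theorem specVal_const_unique {P : Place L F} {f : F} {c c' : L}
    (h : f = algebraMap L F c ∨ 1 ≤ P.ord (f - algebraMap L F c))
    (h' : f = algebraMap L F c' ∨ 1 ≤ P.ord (f - algebraMap L F c')) : c = c' := by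
  by_contra hne
  have hd : algebraMap L F (c' - c) ≠ 0 := by
    rw [Ne, map_eq_zero_iff _ (algebraMap L F).injective]
    exact sub_ne_zero.mpr (Ne.symm hne)
  have hord0 : P.ord (algebraMap L F (c' - c)) = 0 := Fermat.Agent.H23.ord_algebraMap P _
  rcases h with h | h
  · rcases h' with h' | h'
    · exact hne ((algebraMap L F).injective (h.symm.trans h'))
    · rw [h, ← map_sub] at h'
      have h0 : P.ord (algebraMap L F (c - c')) = 0 := Fermat.Agent.H23.ord_algebraMap P _
      omega
  · rcases h' with h' | h'
    · rw [h', ← map_sub] at h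
      omega
    · have e : algebraMap L F (c' - c) = (f - algebraMap L F c) + -(f - algebraMap L F c') := by
        rw [map_sub]; ring
      have h1 : 1 ≤ P.ord (algebraMap L F (c' - c)) := by
        rw [e]
        refine Fermat.Agent.H23.ord_add_ge P (by rw [← e]; exact hd) 1 ?_ ?_
        · exact Or.inr h
        · exact Or.inr (by rw [Fermat.Agent.H23.ord_neg]; exact h')
      omega

theorem SpecVal.unique {P : Place L F} {f : F} {κ κ' : IsLocalRing.ResidueField A}
    (h : SpecVal A P f κ) (h' : SpecVal A P f κ') : κ = κ' := by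
  obtain ⟨c, hc, rfl⟩ := h
  obtain ⟨c', hc', rfl⟩ := h'
  have e : (c : L) = (c' : L) := specVal_const_unique hc hc'
  rw [Subtype.ext e]

end Value

section Generic

variable {L : Type} [Field L] (A : ValuationSubring L) (F : Type) [Field F] [Algebra L F]
variable (Foo F0 : Type) [Field Foo] [Field F0]
  [Algebra (IsLocalRing.ResidueField A) Foo] [Algebra (IsLocalRing.ResidueField A) F0]

/-- The data defining the specialisation map of a two-component model. -/
structure SpecData where
  /-- the valuation ring of the component `C_∞` -/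
  Voo : Subring F
  /-- the valuation ring of the component `C_0` -/
  V0 : Subring F
  /-- reduction to the function field of `C_∞` -/
  redOo : Voo →+* Foo
  /-- reduction to the function field of `C_0` -/
  red0 : V0 →+* F0
  /-- the chart coordinate -/
  y : F
  /-- the test functions of the chart `y` -/
  T₁ : Set F
  /-- the test functions of the chart `y⁻¹` -/
  T₂ : Set F
  /-- a place of `F_∞` used as a default value -/
  Q₀ : Place (IsLocalRing.ResidueField A) Foo

namespace SpecData

variable {A F Foo F0}
variable (D : SpecData A F Foo F0)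

/-- the place `P` lies in the chart `y`: `y(P) ∈ A` -/
def IsFin (P : Place L F) : Prop := ∃ κ, SpecVal A P D.y κ

open Classical in
/-- the test functions of the place `P` -/
def T (P : Place L F) : Set F := if D.IsFin P then D.T₁ else D.T₂

theorem T_of_isFin {P : Place L F} (h : D.IsFin P) : D.T P = D.T₁ := by
  unfold T; rw [if_pos h]

theorem T_of_not_isFin {P : Place L F} (h : ¬ D.IsFin P) : D.T P = D.T₂ := by
  unfold T; rw [if_neg h]

/-- the centre of `P` lies on the component `C_∞` -/
def OnOo (P : Place L F) : Prop :=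
  ∀ b ∈ D.T P, ∀ h : b ∈ D.Voo, D.redOo ⟨b, h⟩ = 0 → SpecVal A P b 0

/-- the centre of `P` lies on the component `C_0` -/
def On0 (P : Place L F) : Prop :=
  ∀ b ∈ D.T P, ∀ h : b ∈ D.V0, D.red0 ⟨b, h⟩ = 0 → SpecVal A P b 0

/-- the place `Q` of `F_∞` lies over the centre of `P` -/
def MatchOo (P : Place L F) (Q : Place (IsLocalRing.ResidueField A) Foo) : Prop :=
  ∀ b ∈ D.T P, ∀ h : b ∈ D.Voo, ∀ κ, SpecVal A P b κ →
    D.redOo ⟨b, h⟩ - algebraMap (IsLocalRing.ResidueField A) Foo κ ∈
      Q.toValuationSubring.nonunits

/-- the place `Q` of `F_0` lies over the centre of `P` -/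
def Match0 (P : Place L F) (Q : Place (IsLocalRing.ResidueField A) F0) : Prop :=
  ∀ b ∈ D.T P, ∀ h : b ∈ D.V0, ∀ κ, SpecVal A P b κ →
    D.red0 ⟨b, h⟩ - algebraMap (IsLocalRing.ResidueField A) F0 κ ∈
      Q.toValuationSubring.nonunits

/-- the centre of `P` is a node: a point of the chart `y` on both components, with a branch
on each -/
def IsNodeAt (P : Place L F) : Prop :=
  D.IsFin P ∧ (∀ b ∈ D.T₁, ∃ κ, SpecVal A P b κ) ∧ D.OnOo P ∧ D.On0 P ∧
    (∃ Q, D.MatchOo P Q) ∧ ∃ Q, D.Match0 P Q

open Classical in
/-- the residue class of the value of `b` at `P` (`0` if there is none) -/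
def kval (P : Place L F) (b : F) : IsLocalRing.ResidueField A :=
  if h : ∃ κ, SpecVal A P b κ then h.choose else 0

theorem specVal_kval {P : Place L F} {b : F} (h : ∃ κ, SpecVal A P b κ) :
    SpecVal A P b (kval (A := A) P b) := by
  unfold kval; rw [dif_pos h]; exact h.choose_spec

theorem kval_eq {P : Place L F} {b : F} {κ : IsLocalRing.ResidueField A}
    (h : SpecVal A P b κ) : kval (A := A) P b = κ :=
  (specVal_kval ⟨κ, h⟩).unique h

/-- `x` is the `k`-point of a node -/
def IsNodePt (x : D.T₁ → IsLocalRing.ResidueField A) : Prop :=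
  ∃ P : Place L F, D.IsNodeAt P ∧ ∀ b : D.T₁, SpecVal A P (b : F) (x b)

/-- **The nodes**: the `k`-points of the chart `y` lying on both components. -/
def NodeT : Type := {x : D.T₁ → IsLocalRing.ResidueField A // D.IsNodePt x}

/-- a place specialising to the node `ν` -/
def nodePlace (ν : D.NodeT) : Place L F := ν.2.choose

theorem nodePlace_isNodeAt (ν : D.NodeT) : D.IsNodeAt (D.nodePlace ν) := ν.2.choose_spec.1

theorem nodePlace_specVal (ν : D.NodeT) (b : D.T₁) :
    SpecVal A (D.nodePlace ν) (b : F) (ν.1 b) := ν.2.choose_spec.2 b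

/-- the branch of the node `ν` on `C_∞` -/
def nOo (ν : D.NodeT) : Place (IsLocalRing.ResidueField A) Foo :=
  (D.nodePlace_isNodeAt ν).2.2.2.2.1.choose

/-- the branch of the node `ν` on `C_0` -/
def n0 (ν : D.NodeT) : Place (IsLocalRing.ResidueField A) F0 :=
  (D.nodePlace_isNodeAt ν).2.2.2.2.2.choose

theorem matchOo_nOo (ν : D.NodeT) : D.MatchOo (D.nodePlace ν) (D.nOo ν) :=
  (D.nodePlace_isNodeAt ν).2.2.2.2.1.choose_spec

theorem match0_n0 (ν : D.NodeT) : D.Match0 (D.nodePlace ν) (D.n0 ν) :=
  (D.nodePlace_isNodeAt ν).2.2.2.2.2.choose_spec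

/-- the value of a test function at the node `ν` is the value of its reduction at the branch
on `C_∞` -/
theorem nOo_spec (ν : D.NodeT) (b : D.T₁) (h : (b : F) ∈ D.Voo) :
    D.redOo ⟨b, h⟩ - algebraMap (IsLocalRing.ResidueField A) Foo (ν.1 b) ∈
      (D.nOo ν).toValuationSubring.nonunits := by
  have hb : (b : F) ∈ D.T (D.nodePlace ν) := by
    rw [D.T_of_isFin (D.nodePlace_isNodeAt ν).1]; exact b.2
  exact D.matchOo_nOo ν b hb h _ (D.nodePlace_specVal ν b)

/-- the value of a test function at the node `ν` is the value of its reduction at the branch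
on `C_0` -/
theorem n0_spec (ν : D.NodeT) (b : D.T₁) (h : (b : F) ∈ D.V0) :
    D.red0 ⟨b, h⟩ - algebraMap (IsLocalRing.ResidueField A) F0 (ν.1 b) ∈
      (D.n0 ν).toValuationSubring.nonunits := by
  have hb : (b : F) ∈ D.T (D.nodePlace ν) := by
    rw [D.T_of_isFin (D.nodePlace_isNodeAt ν).1]; exact b.2
  exact D.match0_n0 ν b hb h _ (D.nodePlace_specVal ν b)

/-- the node at the centre of `P` -/
def nodeOf (P : Place L F) (h : D.IsNodeAt P) : D.NodeT :=
  ⟨fun b => kval (A := A) P (b : F), P, h, fun b => specVal_kval (h.2.1 b b.2)⟩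

open Classical in
/-- **The specialisation map.** -/
def r (P : Place L F) :
    NPt (Place (IsLocalRing.ResidueField A) Foo) (Place (IsLocalRing.ResidueField A) F0)
      D.NodeT :=
  if h : D.IsNodeAt P then NPt.node (D.nodeOf P h)
  else if h₁ : D.OnOo P ∧ ¬ D.On0 P ∧ ∃ Q, D.MatchOo P Q then NPt.oo h₁.2.2.choose
  else if h₂ : D.On0 P ∧ ¬ D.OnOo P ∧ ∃ Q, D.Match0 P Q then NPt.zero h₂.2.2.choose
  else NPt.oo D.Q₀

end SpecData

end Generic

section Nodal

open Fermat.Agent.H72.FF

variable {N : ℕ} {A : ValuationSubring Qb} {Foo F0 : Type} [Field Foo] [Field F0]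
  [Algebra (kRes A) Foo] [Algebra (kRes A) F0]

/-- **The nodal reduction datum** defined by a specialisation datum on `F = ℚ̄(X₀(N))`. -/
def SpecData.toNodalData (D : SpecData A (FLb N) Foo F0) : NodalData N A Foo F0 D.NodeT where
  Voo := D.Voo
  V0 := D.V0
  redOo := D.redOo
  red0 := D.red0
  nOo := D.nOo
  n0 := D.n0
  r := D.r

end Nodal

end Fermat.Agent.H7.ORD
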