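import Fermat.Agent.H7.ORD.SpecDefs
import Fermat.Agent.H22.ES.KLModel
import Fermat.Agent.H93.KL.DescInterfaces
import Fermat.Agent.H23.BlueprintMod

/-!
# P-ORD, block B1-SPEC (helper7): the specialisation datum of the model of `X₀(N)`

The test functions of the two charts `j`, `j⁻¹` of `F = ℚ̄(X₀(N))` at a valuation subring `A`
of `ℚ̄`: the images in `F` of the chart rings `B(j)`, `B(j⁻¹)` (integral closures of `A₀[j]`,
`A₀[j⁻¹]` in the model field of level `N` over `K₁`) over ALL number fields `ι : K₁ → ℚ̄`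
unramified at `A` (`A₀ = A ∩ K₁`).

`modelSpec N A Voo V0 redOo red0 Q₀` is the specialisation datum with these test functions and
the chart coordinate `j`; `modelNodal ...` the corresponding `NodalData`.
-/

set_option autoImplicit false
set_option linter.unusedSectionVars false
set_option linter.style.haveILetI false

noncomputable section

open AlgebraicCurve ModularCurve

namespace Fermat.Agent.H7.ORD

open Fermat.Agent.H18.ORD Fermat.Agent.H72.FF Fermat.Agent.H22.KL Fermat.Agent.H93.KL

/-- The canonical algebra structure of the model field over the trace `A ∩ K₁`. -/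
abbrev specAlg {K₁ : Type} [Field K₁] [Algebra ℚ K₁] (N : ℕ) (A₁ : ValuationSubring K₁) :
    Algebra ↥A₁ (ModelField K₁ N) :=
  ((algebraMap K₁ (ModelField K₁ N)).comp (algebraMap ↥A₁ K₁)).toAlgebra

/-- `ι : K₁ → ℚ̄` is unramified at `A`: its image is fixed pointwise by the inertia group. -/
def SpecUnr {K₁ : Type} [Field K₁] (A : ValuationSubring Qb) (ι : K₁ →+* Qb) : Prop :=
  ∀ σ ∈ A.inertiaSubgroupIn ℚ, ∀ c : K₁, σ (ι c) = ι c

/-- `f` is (the image of) an element of the chart ring `B(x)` of the model over the number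
field `ι : K₁ → ℚ̄`. -/
def IsChartFn (N : ℕ) (A : ValuationSubring Qb) {K₁ : Type} [Field K₁] [Algebra ℚ K₁]
    (ι : K₁ →+* Qb) (x : ModelField K₁ N) (f : FLb N) : Prop :=
  ∃ b : ModelField K₁ N,
    (letI := specAlg N (A.comap ι); b ∈ chartClosure ↥(A.comap ι) (ModelField K₁ N) x) ∧
      klBc ι (modularFunctionFieldFull N) b = f

/-- **The test functions of the chart `j`**: the elements of the chart rings `B(j)` of the
models over all number fields unramified at `A`. -/
def modelT₁ (N : ℕ) (A : ValuationSubring Qb) : Set (FLb N) :=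
  {f | ∃ (K₁ : Type) (_ : Field K₁) (_ : Algebra ℚ K₁) (_ : FiniteDimensional ℚ K₁)
      (ι : K₁ →+* Qb), SpecUnr A ι ∧
      ∃ x : ModelField K₁ N, (x : LaurentSeries K₁) = coeffEmb K₁ jq ∧ IsChartFn N A ι x f}

/-- **The test functions of the chart `j⁻¹`**. -/
def modelT₂ (N : ℕ) (A : ValuationSubring Qb) : Set (FLb N) :=
  {f | ∃ (K₁ : Type) (_ : Field K₁) (_ : Algebra ℚ K₁) (_ : FiniteDimensional ℚ K₁)
      (ι : K₁ →+* Qb), SpecUnr A ι ∧
      ∃ x : ModelField K₁ N, (x : LaurentSeries K₁) = coeffEmb K₁ jq ∧ IsChartFn N A ι x⁻¹ f}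

variable (N : ℕ) [NeZero N] (A : ValuationSubring Qb) {Foo F0 : Type} [Field Foo] [Field F0]
  [Algebra (kRes A) Foo] [Algebra (kRes A) F0]

/-- **The specialisation datum of the model of `X₀(N)`** at `A`, for given valuation rings and
reductions of the two components. -/
def modelSpec (Voo V0 : Subring (FLb N)) (redOo : Voo →+* Foo) (red0 : V0 →+* F0)
    (Q₀ : Place (kRes A) Foo) : SpecData A (FLb N) Foo F0 where
  Voo := Voo
  V0 := V0
  redOo := redOo
  red0 := red0
  y := Fermat.Agent.H23.jBar N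
  T₁ := modelT₁ N A
  T₂ := modelT₂ N A
  Q₀ := Q₀

/-- **The concrete nodal reduction datum** of `X₀(N)` at `A`. -/
def modelNodal (Voo V0 : Subring (FLb N)) (redOo : Voo →+* Foo) (red0 : V0 →+* F0)
    (Q₀ : Place (kRes A) Foo) :
    NodalData N A Foo F0 (modelSpec N A Voo V0 redOo red0 Q₀).NodeT :=
  (modelSpec N A Voo V0 redOo red0 Q₀).toNodalData

end Fermat.Agent.H7.ORD
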